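import Mathlib

set_option autoImplicit false

namespace Fermat.Agent.S51

/-- `AlgebraicClosure ℚ` is Galois over `ℚ` for the `Algebra ℚ _` instance found by unification
(which is `DivisionRing.toRatAlgebra`, not `AlgebraicClosure.instAlgebra`). -/
theorem galoisFixed_isGalois : IsGalois ℚ (AlgebraicClosure ℚ) := by
  have h1 : @IsGalois ℚ _ (AlgebraicClosure ℚ) _ (AlgebraicClosure.instAlgebra ℚ) :=
    inferInstance
  convert h1
  exact Subsingleton.elim _ _

/-- Lemma G: an element of `AlgebraicClosure ℚ` fixed by the whole Galois group is rational. -/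
theorem galois_fixed_rat (x : AlgebraicClosure ℚ)
    (h : ∀ σ : AlgebraicClosure ℚ ≃ₐ[ℚ] AlgebraicClosure ℚ, σ x = x) :
    ∃ q : ℚ, algebraMap ℚ (AlgebraicClosure ℚ) q = x := by
  have := galoisFixed_isGalois
  exact (InfiniteGalois.mem_range_algebraMap_iff_fixed (k := ℚ) (K := AlgebraicClosure ℚ) x).mpr h

end Fermat.Agent.S51
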