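import Mathlib

set_option autoImplicit false

namespace Fermat.Agent.S51

/-- The affine `(t, ρ)`-model `ρ³t² + ρ²(13ρ-3)t - (9ρ⁴-26ρ³+24ρ²-6ρ-1) = 0` of `X₀(15)`:
its rational points with `t ≠ 0`, `ρ ≠ -1` have `t ∈ {-40, -10, -25/2, -25/8}`, given the
rational points of the Weierstrass model `y² = x(x+9)(x-16)`. -/
theorem core_trho
    (hV : ∀ x y : ℚ, y ^ 2 = x * (x + 9) * (x - 16) →
      x = 0 ∨ x = -9 ∨ x = 16 ∨ x = 36 ∨ x = -4)
    (t ρ : ℚ) (ht : t ≠ 0) (hρ : ρ + 1 ≠ 0)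
    (hF : 1 + 6 * ρ - 24 * ρ ^ 2 + 26 * ρ ^ 3 - 9 * ρ ^ 4 + t * (-3 * ρ ^ 2 + 13 * ρ ^ 3)
      + t ^ 2 * ρ ^ 3 = 0) :
    t = -40 ∨ t = -10 ∨ t = -25 / 2 ∨ t = -25 / 8 := by
  by_cases h9 : 9 * ρ + 1 = 0
  · have hρv : ρ = -1 / 9 := by linarith
    rw [hρv] at hF
    have h0 : t * (t + 40) = 0 := by linear_combination (-729) * hF
    rcases mul_eq_zero.mp h0 with h | h
    · exact absurd h ht
    · left; linarith
  · -- generic case
    have hDen : (9 * ρ + 1) ^ 2 * (ρ + 1) ≠ 0 := mul_ne_zero (pow_ne_zero 2 h9) hρ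
    obtain ⟨g, hg⟩ : ∃ g : ℚ, g * (9 * ρ + 1) = 9 * (1 - ρ) :=
      ⟨9 * (1 - ρ) / (9 * ρ + 1), div_mul_cancel₀ _ h9⟩
    obtain ⟨X, hX⟩ : ∃ X : ℚ, X * ((9 * ρ + 1) ^ 2 * (ρ + 1)) =
        36 * (1 - ρ) ^ 2 * (1 - 9 * ρ) + 180 * ρ ^ 2 * t :=
      ⟨(36 * (1 - ρ) ^ 2 * (1 - 9 * ρ) + 180 * ρ ^ 2 * t) / ((9 * ρ + 1) ^ 2 * (ρ + 1)),
        div_mul_cancel₀ _ hDen⟩
    -- the quadratic relation for X over ℚ(g)
    have hC1 : X ^ 2 + (9 - g ^ 2) * X + 16 * g ^ 2 = 0 := by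
      have hkey : ((9 * ρ + 1) ^ 2 * (ρ + 1)) ^ 2 * (X ^ 2 + (9 - g ^ 2) * X + 16 * g ^ 2) = 0 := by
        linear_combination ((X * ((9 * ρ + 1) ^ 2 * (ρ + 1))) - (g * (9 * ρ + 1))^2*ρ - (g * (9 * ρ + 1))^2 + 405*ρ^3 + 180*ρ^2*t + 1575*ρ^2 - 225*ρ + 45) * hX
          + (1620*(g * (9 * ρ + 1))*ρ^4 - 180*(g * (9 * ρ + 1))*ρ^3*t + 2520*(g * (9 * ρ + 1))*ρ^3 - 180*(g * (9 * ρ + 1))*ρ^2*t + 1600*(g * (9 * ρ + 1))*ρ^2 + 680*(g * (9 * ρ + 1))*ρ - 20*(g * (9 * ρ + 1)) - 14580*ρ^5 + 1620*ρ^4*t - 8100*ρ^4 + 8280*ρ^3 - 1620*ρ^2*t + 8280*ρ^2 + 6300*ρ - 180) * hg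
          + (32400 * ρ) * hF
      exact (mul_eq_zero.mp hkey).resolve_left (pow_ne_zero 2 hDen)
    -- the linear relation between X and t over ℚ(g)
    have hL : 10 * (9 + 4 * g) * X = t * (g ^ 3 - 17 * g ^ 2 + 63 * g + 81)
        - 40 * g ^ 2 * (4 - g) := by
      have hkey : ((9 * ρ + 1) ^ 2 * (ρ + 1)) * (9 * ρ + 1) * (10 * (9 + 4 * g) * X
          - (t * (g ^ 3 - 17 * g ^ 2 + 63 * g + 81) - 40 * g ^ 2 * (4 - g))) = 0 := by
        linear_combination (40*(g * (9 * ρ + 1)) + 810*ρ + 90) * hX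
          + (-(g * (9 * ρ + 1))^2*ρ*t - 40*(g * (9 * ρ + 1))^2*ρ - (g * (9 * ρ + 1))^2*t - 40*(g * (9 * ρ + 1))^2 + 162*(g * (9 * ρ + 1))*ρ^2*t + 1800*(g * (9 * ρ + 1))*ρ^2 + 170*(g * (9 * ρ + 1))*ρ*t + 1600*(g * (9 * ρ + 1))*ρ + 8*(g * (9 * ρ + 1))*t - 200*(g * (9 * ρ + 1)) - 6561*ρ^3*t - 29160*ρ^3 + 891*ρ^2*t + 29160*ρ^2 + 261*ρ*t + 360*ρ + 9*t - 360) * hg
      have := (mul_eq_zero.mp hkey).resolve_left (mul_ne_zero hDen h9)
      linarith
    -- the point on the Weierstrass model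
    have hcurve : (g * (X - 16)) ^ 2 = X * (X + 9) * (X - 16) := by
      linear_combination (-(X - 16)) * hC1
    rcases hV X (g * (X - 16)) hcurve with h | h | h | h | h
    · -- X = 0
      rw [h] at hC1 hL
      have hg0 : g = 0 := by
        have : g ^ 2 = 0 := by linarith
        exact pow_eq_zero_iff (two_ne_zero) |>.mp this
      rw [hg0] at hL
      exfalso; apply ht; linarith
    · -- X = -9
      rw [h] at hC1 hL
      have hg0 : g = 0 := by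
        have : g ^ 2 = 0 := by linarith
        exact pow_eq_zero_iff (two_ne_zero) |>.mp this
      rw [hg0] at hL
      right; left; linarith
    · -- X = 16
      rw [h] at hC1
      exfalso; linarith
    · -- X = 36
      rw [h] at hC1 hL
      have hg2 : (g - 9) * (g + 9) = 0 := by linear_combination (-1 / 20) * hC1
      rcases mul_eq_zero.mp hg2 with h' | h'
      · -- g = 9, ρ = 0
        have hg9 : g = 9 := by linarith
        rw [hg9] at hg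
        have hρ0 : ρ = 0 := by linarith
        rw [hρ0] at hF
        exfalso; norm_num at hF
      · have hg9 : g = -9 := by linarith
        rw [hg9] at hL
        right; right; left; linarith
    · -- X = -4
      rw [h] at hC1 hL
      have hg2 : (g - 1) * (g + 1) = 0 := by linear_combination (1 / 20) * hC1
      rcases mul_eq_zero.mp hg2 with h' | h'
      · have hg1 : g = 1 := by linarith
        rw [hg1] at hL
        right; right; right; linarith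
      · have hg1 : g = -1 := by linarith
        rw [hg1] at hg
        exfalso; linarith

end Fermat.Agent.S51
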