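import Mathlib
import Fermat.Agent.S51.CoreTRho

set_option autoImplicit false

namespace Fermat.Agent.S51

/-- Algebraic core in short Weierstrass form `y² = x³ + A x + B`: a rational root `X` of the
3-division polynomial together with a rational 5-isogeny kernel polynomial `x² - S x + M`
forces `j` to be one of four values. -/
theorem core_short
    (hV : ∀ x y : ℚ, y ^ 2 = x * (x + 9) * (x - 16) →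
      x = 0 ∨ x = -9 ∨ x = 16 ∨ x = 36 ∨ x = -4)
    (A B X S M : ℚ)
    (h3 : 3 * X ^ 4 + 6 * A * X ^ 2 + 12 * B * X - A ^ 2 = 0)
    (hD : S ^ 2 - 4 * M ≠ 0)
    (h1 : S ^ 3 - 6 * M * S - 2 * A * S - 4 * B = 0)
    (h2 : (A + S ^ 2 - M) ^ 2 - (2 * S ^ 2 + M) * (S ^ 2 - 4 * M) = 0)
    (hΔ : 4 * A ^ 3 + 27 * B ^ 2 ≠ 0) :
    2 * (-48 * A) ^ 3 = -25 * (-16 * (4 * A ^ 3 + 27 * B ^ 2)) ∨
    8 * (-48 * A) ^ 3 = -(25 * 241 ^ 3) * (-16 * (4 * A ^ 3 + 27 * B ^ 2)) ∨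
    32 * (-48 * A) ^ 3 = -(5 * 29 ^ 3) * (-16 * (4 * A ^ 3 + 27 * B ^ 2)) ∨
    32768 * (-48 * A) ^ 3 = 5 * 211 ^ 3 * (-16 * (4 * A ^ 3 + 27 * B ^ 2)) := by
  obtain ⟨D, hDdef⟩ : ∃ D : ℚ, D = S ^ 2 - 4 * M := ⟨_, rfl⟩
  obtain ⟨T, hTdef⟩ : ∃ T : ℚ, T = 4 * (A + S ^ 2 - M) - 11 * (S ^ 2 - 4 * M) := ⟨_, rfl⟩
  obtain ⟨h, hhdef⟩ : ∃ h : ℚ, h = X ^ 2 - S * X + M := ⟨_, rfl⟩
  have hD0 : D ≠ 0 := by rw [hDdef]; exact hD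
  -- positivity of the discriminant of the kernel polynomial
  have hDpos : 0 < D := by
    rcases lt_or_gt_of_ne hD0 with hneg | hpos
    · exfalso
      have e : 4 * (A + S ^ 2 - M) ^ 2 = (9 * S ^ 2 - D) * D := by
        rw [hDdef]; linear_combination 4 * h2
      nlinarith [sq_nonneg (A + S ^ 2 - M), sq_nonneg S]
    · exact hpos
  have hΔT : -16 * (4 * A ^ 3 + 27 * B ^ 2) = T * D ^ 2 := by
    rw [hDdef, hTdef]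
    linear_combination (-64*A + 20*S^2 - 128*M) * h2 + (-54*A*S + 108*B + 27*S^3 - 162*S*M) * h1
  have hT0 : T ≠ 0 := by
    intro hT
    rw [hT, zero_mul] at hΔT
    apply hΔ
    linarith
  have hc4 : (-48 * A) * D = T ^ 2 + 10 * T * D + 5 * D ^ 2 := by
    rw [hDdef, hTdef]
    linear_combination (-16) * h2
  have hF5 : D ^ 5 + 6 * h * D ^ 4 - 24 * h ^ 2 * D ^ 3 + 26 * h ^ 3 * D ^ 2 - 9 * h ^ 4 * D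
      + T * (-3 * h ^ 2 * D ^ 2 + 13 * h ^ 3 * D) + T ^ 2 * h ^ 3 = 0 := by
    rw [hDdef, hTdef, hhdef]
    linear_combination (-6*A*X^2*S^2 + 24*A*X^2*M + 6*A*X*S^3 - 24*A*X*S*M - 2*A*S^4 + 10*A*S^2*M - 8*A*M^2 - 3*X^4*S^2 + 12*X^4*M + 12*X^3*S^3 - 48*X^3*S*M - 18*X^2*S^4 + 72*X^2*S^2*M + 15*X*S^5 - 78*X*S^3*M + 72*X*S*M^2 - 5*S^6 + 33*S^4*M - 57*S^2*M^2 + 20*M^3) * h3
      + (-18*A*X^3*S^2 + 72*A*X^3*M + 18*A*X^2*S^3 - 72*A*X^2*S*M - 6*A*X*S^4 + 30*A*X*S^2*M - 24*A*X*M^2 - 9*X^5*S^2 + 36*X^5*M + 36*X^4*S^3 - 144*X^4*S*M - 54*X^3*S^4 + 216*X^3*S^2*M + 45*X^2*S^5 - 234*X^2*S^3*M + 216*X^2*S*M^2 - 15*X*S^6 + 99*X*S^4*M - 171*X*S^2*M^2 + 60*X*M^3) * h1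
      + (-6*A*X^2*S^2 + 24*A*X^2*M + 6*A*X*S^3 - 24*A*X*S*M - 2*A*S^4 + 10*A*S^2*M - 8*A*M^2 + 16*X^6 - 48*X^5*S + 81*X^4*S^2 - 84*X^4*M - 76*X^3*S^3 + 144*X^3*S*M + 42*X^2*S^4 - 144*X^2*S^2*M + 144*X^2*M^2 - 9*X*S^5 + 42*X*S^3*M - 72*X*S*M^2 - S^6 + 9*S^4*M - 21*S^2*M^2 + 20*M^3) * h2
  obtain ⟨t, ht⟩ : ∃ t : ℚ, t * D = T := ⟨T / D, div_mul_cancel₀ _ hD0⟩
  obtain ⟨ρ, hρ⟩ : ∃ ρ : ℚ, ρ * D = h := ⟨h / D, div_mul_cancel₀ _ hD0⟩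
  have ht0 : t ≠ 0 := by
    intro h0
    rw [h0, zero_mul] at ht
    exact hT0 ht.symm
  have hρ1 : ρ + 1 ≠ 0 := by
    intro h0
    have e : (ρ + 1) * D = (X - S / 2) ^ 2 + 3 / 4 * D := by
      rw [add_mul, hρ, hhdef, hDdef]; ring
    rw [h0, zero_mul] at e
    nlinarith [sq_nonneg (X - S / 2)]
  have hF : 1 + 6 * ρ - 24 * ρ ^ 2 + 26 * ρ ^ 3 - 9 * ρ ^ 4 + t * (-3 * ρ ^ 2 + 13 * ρ ^ 3)
      + t ^ 2 * ρ ^ 3 = 0 := by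
    have hkey : D ^ 5 * (1 + 6 * ρ - 24 * ρ ^ 2 + 26 * ρ ^ 3 - 9 * ρ ^ 4
        + t * (-3 * ρ ^ 2 + 13 * ρ ^ 3) + t ^ 2 * ρ ^ 3) = 0 := by
      linear_combination ((t * D)*(ρ * D)^3 + 13*(ρ * D)^3*D + (ρ * D)^3*T - 3*(ρ * D)^2*D^2) * ht
        + (-9*(ρ * D)^3*D + 26*(ρ * D)^2*D^2 + 13*(ρ * D)^2*D*T - 9*(ρ * D)^2*D*h + (ρ * D)^2*T^2 - 24*(ρ * D)*D^3 - 3*(ρ * D)*D^2*T + 26*(ρ * D)*D^2*h + 13*(ρ * D)*D*T*h - 9*(ρ * D)*D*h^2 + (ρ * D)*T^2*h + 6*D^4 - 24*D^3*h - 3*D^2*T*h + 26*D^2*h^2 + 13*D*T*h^2 - 9*D*h^3 + T^2*h^2) * hρ + hF5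
    exact (mul_eq_zero.mp hkey).resolve_left (pow_ne_zero 5 hD0)
  have hc4' : -48 * A = (t ^ 2 + 10 * t + 5) * D := by
    apply mul_right_cancel₀ hD0
    rw [hc4, ← ht]; ring
  have hΔ' : -16 * (4 * A ^ 3 + 27 * B ^ 2) = t * D ^ 3 := by
    rw [hΔT, ← ht]; ring
  rw [hc4', hΔ']
  rcases core_trho hV t ρ ht0 hρ1 hF with h | h | h | h
  · right; left; rw [h]; ring
  · left; rw [h]; ring
  · right; right; left; rw [h]; ring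
  · right; right; right; rw [h]; ring

end Fermat.Agent.S51
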