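import Mathlib
import Fermat.Agent.S51.CoreShort

set_option autoImplicit false

namespace Fermat.Agent.S51

open Polynomial in
/-- Algebraic core of S51 for a general Weierstrass curve over `ℚ`: a rational root `x₃` of the
3-division polynomial `Ψ₃` together with a rational 5-isogeny kernel polynomial `x² - s x + m`
(a genuine 2-cycle of the duplication map) forces `j = c₄³/Δ` to be one of the four
`j`-invariants of the curves of conductor 50. -/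
theorem core
    (hV : ∀ x y : ℚ, y ^ 2 = x * (x + 9) * (x - 16) →
      x = 0 ∨ x = -9 ∨ x = 16 ∨ x = 36 ∨ x = -4)
    (W : WeierstrassCurve ℚ) (hΔ : W.Δ ≠ 0) (x₃ s m : ℚ)
    (h3 : W.Ψ₃.eval x₃ = 0)
    (hsm : s ^ 2 - 4 * m ≠ 0)
    (h1 : s ^ 3 - 6 * m * s - W.b₂ * m - W.b₄ * s - W.b₆ = 0)
    (h2 : s ^ 4 - 8 * m * s ^ 2 + 10 * m ^ 2 - W.b₂ * m * s - W.b₄ * s ^ 2 - 2 * W.b₄ * m
          - 3 * W.b₆ * s - 2 * W.b₈ = 0) :
    2 * W.c₄ ^ 3 = -25 * W.Δ ∨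
    8 * W.c₄ ^ 3 = -(25 * 241 ^ 3) * W.Δ ∨
    32 * W.c₄ ^ 3 = -(5 * 29 ^ 3) * W.Δ ∨
    32768 * W.c₄ ^ 3 = 5 * 211 ^ 3 * W.Δ := by
  have hb := W.b_relation
  have hc := W.c_relation
  have hc4 : W.c₄ = W.b₂ ^ 2 - 24 * W.b₄ := rfl
  have hc6 : W.c₆ = -W.b₂ ^ 3 + 36 * W.b₂ * W.b₄ - 216 * W.b₆ := rfl
  have h3' : 3 * x₃ ^ 4 + W.b₂ * x₃ ^ 3 + 3 * W.b₄ * x₃ ^ 2 + 3 * W.b₆ * x₃ + W.b₈ = 0 := by
    have := h3
    simp only [WeierstrassCurve.Ψ₃, eval_add, eval_mul, eval_pow, eval_X, eval_C, eval_ofNat]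
      at this
    linarith
  have hAB : -16 * (4 * (-W.c₄ / 48) ^ 3 + 27 * (-W.c₆ / 864) ^ 2) = W.Δ := by
    linear_combination (-1 / 1728) * hc
  have key := core_short hV (-W.c₄ / 48) (-W.c₆ / 864) (x₃ + W.b₂ / 12) (s + W.b₂ / 6)
    (m + W.b₂ * s / 12 + W.b₂ ^ 2 / 144)
    (by rw [hc4, hc6]; linear_combination h3' - (1 / 4) * hb)
    (by
      have e : (s + W.b₂ / 6) ^ 2 - 4 * (m + W.b₂ * s / 12 + W.b₂ ^ 2 / 144) = s ^ 2 - 4 * m := by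
        ring
      rw [e]; exact hsm)
    (by rw [hc4, hc6]; linear_combination h1)
    (by
      rw [hc4]
      linear_combination (1 / 2) * h2 - (3 / 2) * s * h1 - (1 / 4) * W.b₂ * h1 + (1 / 4) * hb)
    (by
      intro h0
      apply hΔ
      rw [← hAB, h0, mul_zero])
  rw [hAB] at key
  have e48 : -48 * (-W.c₄ / 48) = W.c₄ := by ring
  rw [e48] at key
  exact key

end Fermat.Agent.S51
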