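import Fermat.Statements.S51

/-!
# S51, piece F: final arithmetic

The four `j`-invariants of the non-cuspidal rational points of `X₀(15)` are
`-25/2`, `-25·241³/8`, `-5·29³/32`, `5·211³/32768`.  An integral Weierstrass model with such a
`j = c₄³/Δ` has `5 ∣ c₄` and `5 ∣ Δ`, hence is not semistable.
-/

set_option autoImplicit false

namespace Fermat.Agent.S51

/-- `5 ∣ n * c ^ 3` with `5 ∤ n` forces `5 ∣ c` (over `ℤ`). -/
theorem final_five_dvd_of_dvd_mul_cube {n c : ℤ} (hn : ¬ (5 : ℤ) ∣ n) (h : (5 : ℤ) ∣ n * c ^ 3) :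
    (5 : ℤ) ∣ c := by
  have h5 : Prime (5 : ℤ) := by
    rw [Int.prime_iff_natAbs_prime]
    norm_num
  rcases h5.dvd_or_dvd h with h1 | h1
  · exact absurd h1 hn
  · exact h5.dvd_of_dvd_pow h1

/-- Pure integer form of piece F. -/
theorem final_int (c d : ℤ)
    (h : 2 * c ^ 3 = -25 * d ∨ 8 * c ^ 3 = -(25 * 241 ^ 3) * d ∨
      32 * c ^ 3 = -(5 * 29 ^ 3) * d ∨ 32768 * c ^ 3 = 5 * 211 ^ 3 * d) :
    (5 : ℤ) ∣ c ∧ (5 : ℤ) ∣ d := by
  have e2 : (-(25 * 241 ^ 3) : ℤ) = -349938025 := by norm_num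
  have e3 : (-(5 * 29 ^ 3) : ℤ) = -121945 := by norm_num
  have e4 : (5 * 211 ^ 3 : ℤ) = 46969655 := by norm_num
  rw [e2, e3, e4] at h
  have hcube : ∀ k : ℤ, (5 * k) ^ 3 = 125 * k ^ 3 := fun k => by ring
  rcases h with h | h | h | h
  · have hc : (5 : ℤ) ∣ c :=
      final_five_dvd_of_dvd_mul_cube (n := 2) (by norm_num) ⟨-5 * d, by linarith⟩
    refine ⟨hc, ?_⟩
    obtain ⟨k, rfl⟩ := hc
    rw [hcube] at h
    generalize k ^ 3 = t at h
    omega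
  · have hc : (5 : ℤ) ∣ c :=
      final_five_dvd_of_dvd_mul_cube (n := 8) (by norm_num) ⟨-69987605 * d, by linarith⟩
    refine ⟨hc, ?_⟩
    obtain ⟨k, rfl⟩ := hc
    rw [hcube] at h
    generalize k ^ 3 = t at h
    omega
  · have hc : (5 : ℤ) ∣ c :=
      final_five_dvd_of_dvd_mul_cube (n := 32) (by norm_num) ⟨-24389 * d, by linarith⟩
    refine ⟨hc, ?_⟩
    obtain ⟨k, rfl⟩ := hc
    rw [hcube] at h
    generalize k ^ 3 = t at h
    omega
  · have hc : (5 : ℤ) ∣ c :=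
      final_five_dvd_of_dvd_mul_cube (n := 32768) (by norm_num) ⟨9393931 * d, by linarith⟩
    refine ⟨hc, ?_⟩
    obtain ⟨k, rfl⟩ := hc
    rw [hcube] at h
    generalize k ^ 3 = t at h
    omega

/-- Piece F of S51: no semistable integral model has one of the four `j`-invariants of the
non-cuspidal rational points of `X₀(15)`. -/
theorem final_arith (W : WeierstrassCurve ℤ) (hW : W.IsSemistableModel) (_hΔ : W.Δ ≠ 0)
    (h : 2 * W.c₄ ^ 3 = -25 * W.Δ ∨ 8 * W.c₄ ^ 3 = -(25 * 241 ^ 3) * W.Δ ∨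
      32 * W.c₄ ^ 3 = -(5 * 29 ^ 3) * W.Δ ∨ 32768 * W.c₄ ^ 3 = 5 * 211 ^ 3 * W.Δ) : False := by
  obtain ⟨h1, h2⟩ := final_int W.c₄ W.Δ h
  exact hW 5 (by norm_num) h2 h1

/-- Pure rational-to-integer transfer for piece F. -/
theorem final_rat_to_int (c d : ℤ)
    (h : (c : ℚ) ^ 3 = (-25 / 2 : ℚ) * (d : ℚ) ∨
      (c : ℚ) ^ 3 = (-(25 * 241 ^ 3) / 8 : ℚ) * (d : ℚ) ∨
      (c : ℚ) ^ 3 = (-(5 * 29 ^ 3) / 32 : ℚ) * (d : ℚ) ∨
      (c : ℚ) ^ 3 = (5 * 211 ^ 3 / 32768 : ℚ) * (d : ℚ)) :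
    2 * c ^ 3 = -25 * d ∨ 8 * c ^ 3 = -(25 * 241 ^ 3) * d ∨
      32 * c ^ 3 = -(5 * 29 ^ 3) * d ∨ 32768 * c ^ 3 = 5 * 211 ^ 3 * d := by
  have e2 : (-(25 * 241 ^ 3) : ℤ) = -349938025 := by norm_num
  have e3 : (-(5 * 29 ^ 3) : ℤ) = -121945 := by norm_num
  have e4 : (5 * 211 ^ 3 : ℤ) = 46969655 := by norm_num
  have f2 : (-(25 * 241 ^ 3) / 8 : ℚ) = -349938025 / 8 := by norm_num
  have f3 : (-(5 * 29 ^ 3) / 32 : ℚ) = -121945 / 32 := by norm_num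
  have f4 : (5 * 211 ^ 3 / 32768 : ℚ) = 46969655 / 32768 := by norm_num
  rw [e2, e3, e4]
  rw [f2, f3, f4] at h
  rcases h with h | h | h | h
  · left
    have : ((2 * c ^ 3 : ℤ) : ℚ) = ((-25 * d : ℤ) : ℚ) := by
      push_cast; linarith
    exact_mod_cast this
  · right; left
    have : ((8 * c ^ 3 : ℤ) : ℚ) = ((-349938025 * d : ℤ) : ℚ) := by
      push_cast; linarith
    exact_mod_cast this
  · right; right; left
    have : ((32 * c ^ 3 : ℤ) : ℚ) = ((-121945 * d : ℤ) : ℚ) := by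
      push_cast; linarith
    exact_mod_cast this
  · right; right; right
    have : ((32768 * c ^ 3 : ℤ) : ℚ) = ((46969655 * d : ℤ) : ℚ) := by
      push_cast; linarith
    exact_mod_cast this

/-! ### Cast lemmas: the invariants of `W.map (Int.castRingHom ℚ)` -/

section casts

variable (W : WeierstrassCurve ℤ)

theorem final_map_c₄ : (W.map (Int.castRingHom ℚ)).c₄ = (W.c₄ : ℚ) := by
  rw [WeierstrassCurve.map_c₄]; rfl

theorem final_map_c₆ : (W.map (Int.castRingHom ℚ)).c₆ = (W.c₆ : ℚ) := by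
  rw [WeierstrassCurve.map_c₆]; rfl

theorem final_map_Δ : (W.map (Int.castRingHom ℚ)).Δ = (W.Δ : ℚ) := by
  rw [WeierstrassCurve.map_Δ]; rfl

theorem final_map_b₂ : (W.map (Int.castRingHom ℚ)).b₂ = (W.b₂ : ℚ) := by
  rw [WeierstrassCurve.map_b₂]; rfl

theorem final_map_b₄ : (W.map (Int.castRingHom ℚ)).b₄ = (W.b₄ : ℚ) := by
  rw [WeierstrassCurve.map_b₄]; rfl

theorem final_map_b₆ : (W.map (Int.castRingHom ℚ)).b₆ = (W.b₆ : ℚ) := by
  rw [WeierstrassCurve.map_b₆]; rfl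

theorem final_map_b₈ : (W.map (Int.castRingHom ℚ)).b₈ = (W.b₈ : ℚ) := by
  rw [WeierstrassCurve.map_b₈]; rfl

theorem final_map_Δ_ne_zero (hΔ : W.Δ ≠ 0) : (W.map (Int.castRingHom ℚ)).Δ ≠ 0 := by
  rw [final_map_Δ]; exact_mod_cast hΔ

/-- The rational version of `final_arith`: a semistable integral model whose base change to `ℚ`
has `c₄³ = j · Δ` for one of the four exceptional `j` does not exist. -/
theorem final_arith_rat (hW : W.IsSemistableModel) (hΔ : W.Δ ≠ 0)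
    (h : (W.map (Int.castRingHom ℚ)).c₄ ^ 3 = (-25 / 2 : ℚ) * (W.map (Int.castRingHom ℚ)).Δ ∨
      (W.map (Int.castRingHom ℚ)).c₄ ^ 3 =
        (-(25 * 241 ^ 3) / 8 : ℚ) * (W.map (Int.castRingHom ℚ)).Δ ∨
      (W.map (Int.castRingHom ℚ)).c₄ ^ 3 =
        (-(5 * 29 ^ 3) / 32 : ℚ) * (W.map (Int.castRingHom ℚ)).Δ ∨
      (W.map (Int.castRingHom ℚ)).c₄ ^ 3 =
        (5 * 211 ^ 3 / 32768 : ℚ) * (W.map (Int.castRingHom ℚ)).Δ) : False := by
  rw [final_map_c₄, final_map_Δ] at h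
  exact final_arith W hW hΔ (final_rat_to_int W.c₄ W.Δ h)

end casts

end Fermat.Agent.S51
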