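import Fermat.Agent.S51.RatPointsDescent

/-!
# S51, piece V: rational points on `y² = x(x+9)(x-16)` (the curve 15a1 = X₀(15))

`ratPoints_15a1`: the only rational points have `x ∈ {0, -9, 16, 36, -4}`.
Route: the 2-isogeny with kernel `(16,0)` maps to `F : y² = x(x-1)(x-81)`, and `F(ℚ) = F[2]`
(`rp_F`) by the class lemma `rp_class` and the descent `rp_no_triv`.
-/

set_option autoImplicit false

namespace Fermat.Agent.S51

/-- `F : y² = x(x-1)(x-81)` has no rational points besides the 2-torsion. -/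
theorem rp_F (x y : ℚ) (h : y ^ 2 = x * (x - 1) * (x - 81)) : y = 0 := by
  by_contra hy
  have hx0 : x ≠ 0 := by rintro rfl; simp at h; exact hy h
  have hx1 : x - 1 ≠ 0 := by
    intro h0; rw [h0] at h; simp at h; exact hy h
  have hx81 : x - 81 ≠ 0 := by
    intro h0; rw [h0] at h; simp at h; exact hy h
  obtain ⟨d, hd, α, β, γ, hα, hβ, hγ⟩ := rp_class x y hy h
  have hα0 : α ≠ 0 := by rintro rfl; simp at hα; exact hx0 hα
  have hβ0 : β ≠ 0 := by rintro rfl; simp at hβ; exact hx1 hβ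
  have hγ0 : γ ≠ 0 := by rintro rfl; simp at hγ; exact hx81 hγ
  rcases hd with rfl | rfl | rfl | rfl
  · exact rp_no_triv x ⟨α, β, γ, hα, by rw [hβ]; ring, by rw [hγ]; ring⟩
  · refine rp_no_triv (81 / x) ⟨9 / α, γ / α, 9 * β / α, ?_, ?_, ?_⟩
    · rw [hα]; field_simp; norm_num
    · rw [hα]; field_simp
      linear_combination (-1 : ℚ) * hγ + hα
    · rw [hα]; field_simp
      linear_combination (-81 : ℚ) * hβ + 81 * hα
  · refine rp_no_triv (81 * (x - 1) / (x - 81)) ⟨9 * β / γ, 4 * α / γ, 36 / γ, ?_, ?_, ?_⟩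
    · rw [hβ, hγ]; field_simp
      ring
    · rw [hγ]; field_simp
      linear_combination hγ + 80 * hα
    · rw [hγ]; field_simp
      linear_combination 81 * hγ
  · refine rp_no_triv ((x - 81) / (x - 1)) ⟨γ / β, 4 / β, 4 * α / β, ?_, ?_, ?_⟩
    · rw [hβ, hγ]; field_simp
    · rw [hβ]; field_simp
      linear_combination (-1 : ℚ) * hβ
    · rw [hβ]; field_simp
      linear_combination (-81 : ℚ) * hβ + 80 * hα

/-- **S51 piece V**: the rational points of `y² = x(x+9)(x-16)` (the curve 15a1 = X₀(15)). -/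
theorem ratPoints_15a1 (x y : ℚ) (h : y ^ 2 = x * (x + 9) * (x - 16)) :
    x = 0 ∨ x = -9 ∨ x = 16 ∨ x = 36 ∨ x = -4 := by
  obtain ⟨X, rfl⟩ : ∃ X : ℚ, x = X + 16 := ⟨x - 16, by ring⟩
  by_cases hX : X = 0
  · right; right; left; rw [hX]; norm_num
  have hy2 : y ^ 2 = X * (X ^ 2 + 41 * X + 400) := by rw [h]; ring
  have hxF : y ^ 2 / X ^ 2 = (X ^ 2 + 41 * X + 400) / X := by
    rw [hy2]; field_simp
  have key : (y * (X ^ 2 - 400) / X ^ 2) ^ 2 =
      (y ^ 2 / X ^ 2) * (y ^ 2 / X ^ 2 - 1) * (y ^ 2 / X ^ 2 - 81) := by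
    have e1 : (y * (X ^ 2 - 400) / X ^ 2) ^ 2 = y ^ 2 * (X ^ 2 - 400) ^ 2 / X ^ 4 := by ring
    rw [e1, hxF, hy2]; field_simp; ring
  have h0 := rp_F _ _ key
  have hX2 : X ^ 2 ≠ 0 := pow_ne_zero 2 hX
  rw [div_eq_zero_iff] at h0
  rcases h0 with h0 | h0
  · rcases mul_eq_zero.mp h0 with hy | h400
    · rw [hy] at hy2
      have h' : X * (X + 16) * (X + 25) = 0 := by linear_combination -hy2
      rcases mul_eq_zero.mp h' with h1 | h1
      · rcases mul_eq_zero.mp h1 with h2 | h2
        · exact absurd h2 hX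
        · left; linarith
      · right; left; linarith
    · have : (X - 20) * (X + 20) = 0 := by linear_combination h400
      rcases mul_eq_zero.mp this with h1 | h1
      · right; right; right; left; linarith
      · right; right; right; right; linarith
  · exact absurd h0 hX2

end Fermat.Agent.S51
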