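import Mathlib

/-!
# S51, lemma C: a proper nonzero submodule of a `ZMod p`-module with at most `p ^ 2` elements is a line

`Fermat.Agent.S51.line_exists_smul`: if `M` is a finite `ZMod p`-module with `Nat.card M ≤ p ^ 2`,
`N` a submodule with `N ≠ ⊥`, `N ≠ ⊤`, and `P ∈ N`, `P ≠ 0`, then every `Q ∈ N` is a multiple of `P`.
-/

set_option autoImplicit false

namespace Fermat.Agent.S51

/-- A finite `ZMod p`-module with at most `p ^ 2` elements has `finrank ≤ 2`. -/
theorem line_finrank_le_two {p : ℕ} [Fact p.Prime] {M : Type*} [AddCommGroup M]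
    [Module (ZMod p) M] [Finite M] (hcard : Nat.card M ≤ p ^ 2) :
    Module.finrank (ZMod p) M ≤ 2 := by
  have hp : p.Prime := Fact.out
  have h := Module.natCard_eq_pow_finrank (K := ZMod p) (V := M)
  rw [Nat.card_zmod] at h
  rw [h] at hcard
  exact (Nat.pow_le_pow_iff_right hp.one_lt).mp hcard

/-- Lemma C of the S51 plan. -/
theorem line_exists_smul {p : ℕ} [Fact p.Prime] {M : Type*} [AddCommGroup M]
    [Module (ZMod p) M] [Finite M] (hcard : Nat.card M ≤ p ^ 2)
    (N : Submodule (ZMod p) M) (hbot : N ≠ ⊥) (htop : N ≠ ⊤) {P : M} (hP : P ∈ N) (hP0 : P ≠ 0) :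
    ∀ Q ∈ N, ∃ k : ZMod p, Q = k • P := by
  have _hbot := hbot
  have : Module.Finite (ZMod p) M := Module.Finite.of_finite
  have h2 : Module.finrank (ZMod p) M ≤ 2 := line_finrank_le_two hcard
  have hlt : Module.finrank (ZMod p) N < Module.finrank (ZMod p) M :=
    Submodule.finrank_lt htop
  have hspan_le : Submodule.span (ZMod p) {P} ≤ N :=
    (Submodule.span_singleton_le_iff_mem P N).mpr hP
  have hspan1 : Module.finrank (ZMod p) (Submodule.span (ZMod p) {P}) = 1 :=
    finrank_span_singleton hP0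
  have hle : Module.finrank (ZMod p) N ≤ Module.finrank (ZMod p) (Submodule.span (ZMod p) {P}) := by
    rw [hspan1]; omega
  have heq : Submodule.span (ZMod p) {P} = N :=
    Submodule.eq_of_le_of_finrank_le hspan_le hle
  intro Q hQ
  rw [← heq] at hQ
  obtain ⟨k, hk⟩ := Submodule.mem_span_singleton.mp hQ
  exact ⟨k, hk.symm⟩

end Fermat.Agent.S51
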