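import Fermat.Statements.S51
import Fermat.Agent.S51.GaloisFixed
import Fermat.Agent.S51.Line

set_option autoImplicit false

open WeierstrassCurve WeierstrassCurve.Affine WeierstrassCurve.Affine.Point
open Polynomial

namespace Fermat.Agent.S51

section general

variable {F : Type*} [Field F] (W : Affine F)

/-- Evaluation of `Ψ₃`. -/
theorem t3_eval_Ψ₃ (x : F) :
    W.Ψ₃.eval x = 3 * x ^ 4 + W.b₂ * x ^ 3 + 3 * W.b₄ * x ^ 2 + 3 * W.b₆ * x + W.b₈ := by
  simp [WeierstrassCurve.Ψ₃]

/-- Key identity: with `n = 3x² + 2a₂x + a₄ - a₁y` and `d = 2y + a₁x + a₃`, on the curve we have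
`n² + a₁ n d - (a₂ + 3x) d² = -Ψ₃(x)`. -/
theorem t3_key_identity {x y : F} (h : W.Equation x y) :
    (3 * x ^ 2 + 2 * W.a₂ * x + W.a₄ - W.a₁ * y) ^ 2
      + W.a₁ * (3 * x ^ 2 + 2 * W.a₂ * x + W.a₄ - W.a₁ * y) * (2 * y + W.a₁ * x + W.a₃)
      - (W.a₂ + 3 * x) * (2 * y + W.a₁ * x + W.a₃) ^ 2 = - W.Ψ₃.eval x := by
  rw [WeierstrassCurve.Affine.equation_iff] at h
  rw [t3_eval_Ψ₃]
  simp only [WeierstrassCurve.b₂, WeierstrassCurve.b₄, WeierstrassCurve.b₆, WeierstrassCurve.b₈]
  linear_combination (-(W.a₁ ^ 2 + 4 * W.a₂ + 12 * x)) * h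

variable [DecidableEq F]

/-- The `x`-coordinate of `2P` minus the `x`-coordinate of `P`, for a non-2-torsion point. -/
theorem t3_addX_sub {x y : F} (h : W.Equation x y) (hy : y ≠ W.negY x y) :
    W.addX x x (W.slope x x y y) - x
      = - W.Ψ₃.eval x / (2 * y + W.a₁ * x + W.a₃) ^ 2 := by
  have hd : 2 * y + W.a₁ * x + W.a₃ ≠ 0 := by
    intro h0
    apply hy
    simp only [WeierstrassCurve.Affine.negY]
    linear_combination h0
  have e : y - W.negY x y = 2 * y + W.a₁ * x + W.a₃ := by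
    simp only [WeierstrassCurve.Affine.negY]; ring
  have aux : ∀ n d : F, d ≠ 0 → (n / d) ^ 2 + W.a₁ * (n / d) - W.a₂ - x - x - x
      = (n ^ 2 + W.a₁ * n * d - (W.a₂ + 3 * x) * d ^ 2) / d ^ 2 := by
    intro n d hd
    field_simp
    ring
  rw [WeierstrassCurve.Affine.slope_of_Y_ne rfl hy, e]
  simp only [WeierstrassCurve.Affine.addX]
  rw [aux _ _ hd, t3_key_identity W h]

/-- A point `P = (x, y)` is killed by `3` iff `Ψ₃(x) = 0`. -/
theorem t3_three_zsmul_eq_zero_iff {x y : F} (h : W.Nonsingular x y) :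
    (3 : ℤ) • (Point.some x y h) = 0 ↔ W.Ψ₃.eval x = 0 := by
  have h3 : (3 : ℤ) • (Point.some x y h) = Point.some x y h + Point.some x y h + Point.some x y h := by
    rw [show (3 : ℤ) = 1 + 1 + 1 by norm_num, add_zsmul, add_zsmul, one_zsmul]
  rw [h3]
  have heq := h.1
  by_cases hy : y = W.negY x y
  · -- 2-torsion point
    rw [add_self_of_Y_eq hy, zero_add]
    have hd : 2 * y + W.a₁ * x + W.a₃ = 0 := by
      have := hy
      simp only [WeierstrassCurve.Affine.negY] at this
      linear_combination this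
    have hns := (WeierstrassCurve.Affine.nonsingular_iff x y).1 h
    have hn : 3 * x ^ 2 + 2 * W.a₂ * x + W.a₄ - W.a₁ * y ≠ 0 := by
      rcases hns.2 with h1 | h1
      · intro h0; apply h1; linear_combination -h0
      · exact absurd hy h1
    have key := t3_key_identity W heq
    rw [hd] at key
    constructor
    · intro h0; exact absurd h0 (some_ne_zero h)
    · intro h0
      rw [h0] at key
      have : (3 * x ^ 2 + 2 * W.a₂ * x + W.a₄ - W.a₁ * y) ^ 2 = 0 := by linear_combination key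
      exact absurd ((pow_eq_zero_iff (two_ne_zero)).1 this) hn
  · have hd : 2 * y + W.a₁ * x + W.a₃ ≠ 0 := by
      intro h0
      apply hy
      simp only [WeierstrassCurve.Affine.negY]
      linear_combination h0
    have hsub := t3_addX_sub W heq hy
    rw [add_self_of_Y_ne hy, ← eq_neg_iff_add_eq_zero, neg_some]
    constructor
    · intro h0
      have hx := (Point.some.inj h0).1
      rw [hx, sub_self] at hsub
      have := hsub.symm
      rw [div_eq_zero_iff] at this
      rcases this with h1 | h1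
      · simpa using h1
      · exact absurd ((pow_eq_zero_iff (two_ne_zero)).1 h1) hd
    · intro h0
      rw [h0, _root_.neg_zero, zero_div, sub_eq_zero] at hsub
      have := (X_eq_iff (h₁ := nonsingular_add h h fun hxy => hy hxy.right) (h₂ := h)).1 hsub
      rcases this with h1 | h1
      · exfalso
        have h2 : Point.some x y h + Point.some x y h = Point.some x y h := by
          rw [add_self_of_Y_ne hy]; exact h1
        exact some_ne_zero h (add_eq_left.1 h2)
      · rw [h1, neg_some]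

/-- Over an algebraically closed field of characteristic not `3`, a curve with `Δ ≠ 0` has an
affine point killed by `3`. -/
theorem t3_exists_point [IsAlgClosed F] (h3 : (3 : F) ≠ 0) (h2 : (2 : F) ≠ 0) (hΔ : W.Δ ≠ 0) :
    ∃ (x y : F) (h : W.Nonsingular x y), (3 : ℤ) • (Point.some x y h) = 0 := by
  have hdeg : W.Ψ₃.degree ≠ 0 := by
    have := WeierstrassCurve.natDegree_Ψ₃ W h3
    intro h0
    have h1 := Polynomial.natDegree_eq_of_degree_eq_some h0
    rw [this] at h1
    norm_num at h1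
  obtain ⟨x, hx⟩ := IsAlgClosed.exists_root W.Ψ₃ hdeg
  obtain ⟨s, hs⟩ := IsAlgClosed.exists_pow_nat_eq
    (4 * x ^ 3 + W.b₂ * x ^ 2 + 2 * W.b₄ * x + W.b₆) (n := 2) (by norm_num)
  have heq : W.Equation x ((s - W.a₁ * x - W.a₃) / 2) := by
    rw [WeierstrassCurve.Affine.equation_iff]
    simp only [WeierstrassCurve.b₂, WeierstrassCurve.b₄, WeierstrassCurve.b₆] at hs
    field_simp
    linear_combination hs
  have hns := (WeierstrassCurve.Affine.equation_iff_nonsingular_of_Δ_ne_zero hΔ).1 heq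
  exact ⟨x, _, hns, (t3_three_zsmul_eq_zero_iff W hns).2 hx⟩

/-- The quadratic polynomial in `Y` cutting out the points with given `x`-coordinate. -/
noncomputable def t3_quad (x : F) : F[X] :=
  C 1 * X ^ 2 + C (W.a₁ * x + W.a₃) * X + C (-(x ^ 3 + W.a₂ * x ^ 2 + W.a₄ * x + W.a₆))

omit [DecidableEq F] in
theorem t3_quad_eval (x y : F) : (t3_quad W x).eval y = 0 ↔ W.Equation x y := by
  rw [WeierstrassCurve.Affine.equation_iff]
  simp only [t3_quad, eval_add, eval_mul, eval_C, eval_pow, eval_X]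
  constructor <;> intro h <;> linear_combination h

omit [DecidableEq F] in
theorem t3_quad_natDegree (x : F) : (t3_quad W x).natDegree = 2 :=
  Polynomial.natDegree_quadratic one_ne_zero

omit [DecidableEq F] in
theorem t3_quad_ne_zero (x : F) : t3_quad W x ≠ 0 := by
  intro h
  have := t3_quad_natDegree W x
  rw [h] at this
  simp at this

/-- Coordinates of a point. -/
def t3_coords : W.Point → Option (F × F)
  | .zero => none
  | .some x y _ => Option.some (x, y)

omit [DecidableEq F] in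
theorem t3_coords_injective : Function.Injective (t3_coords W) := by
  rintro (_ | ⟨x₁, y₁, h₁⟩) (_ | ⟨x₂, y₂, h₂⟩) h <;>
    simp only [t3_coords, Option.some.injEq, Prod.mk.injEq, reduceCtorEq] at h
  · rfl
  · obtain ⟨rfl, rfl⟩ := h; rfl

/-- The finite set of coordinates containing all `3`-torsion points. -/
noncomputable def t3_finset : Finset (Option (F × F)) :=
  insert none (((W.Ψ₃.roots.toFinset).biUnion
    (fun x => ((t3_quad W x).roots.toFinset).image (fun y => (x, y)))).image Option.some)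

theorem t3_finset_card_le : (t3_finset W).card ≤ 9 := by
  unfold t3_finset
  refine (Finset.card_insert_le _ _).trans ?_
  have h1 : ((W.Ψ₃.roots.toFinset).biUnion
      (fun x => ((t3_quad W x).roots.toFinset).image (fun y => (x, y)))).card ≤ 8 := by
    refine Finset.card_biUnion_le.trans ?_
    have h2 : ∀ x ∈ W.Ψ₃.roots.toFinset,
        (((t3_quad W x).roots.toFinset).image (fun y => (x, y))).card ≤ 2 := by
      intro x _
      refine Finset.card_image_le.trans ?_
      refine (Multiset.toFinset_card_le _).trans ?_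
      exact (Polynomial.card_roots' _).trans (t3_quad_natDegree W x).le
    refine (Finset.sum_le_card_nsmul _ _ 2 h2).trans ?_
    have h3 : (W.Ψ₃.roots.toFinset).card ≤ 4 :=
      (Multiset.toFinset_card_le _).trans
        ((Polynomial.card_roots' _).trans (WeierstrassCurve.natDegree_Ψ₃_le W))
    simp only [smul_eq_mul]
    omega
  have := Finset.card_image_le (s := (W.Ψ₃.roots.toFinset).biUnion
      (fun x => ((t3_quad W x).roots.toFinset).image (fun y => (x, y)))) (f := Option.some)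
  omega

theorem t3_coords_mem (h3 : (3 : F) ≠ 0) {P : W.Point} (hP : (3 : ℤ) • P = 0) :
    t3_coords W P ∈ t3_finset W := by
  have hΨ : W.Ψ₃ ≠ 0 := by
    intro h0
    have := WeierstrassCurve.natDegree_Ψ₃ W h3
    rw [h0] at this
    simp at this
  rcases P with _ | ⟨x, y, h⟩
  · simp [t3_coords, t3_finset]
  · have hx := (t3_three_zsmul_eq_zero_iff W h).1 hP
    simp only [t3_coords, t3_finset, Finset.mem_insert, reduceCtorEq, Finset.mem_image,
      Finset.mem_biUnion, Multiset.mem_toFinset, Option.some.injEq, false_or]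
    refine ⟨(x, y), ⟨x, ?_, y, ?_, rfl⟩, rfl⟩
    · exact (Polynomial.mem_roots hΨ).2 hx
    · exact (Polynomial.mem_roots (t3_quad_ne_zero W x)).2 ((t3_quad_eval W x y).2 h.1)

/-- The `3`-torsion of a Weierstrass curve over a field of characteristic `≠ 3` has at most
`9` elements. -/
theorem t3_torsion_card_le (h3 : (3 : F) ≠ 0) :
    Finite (Submodule.torsionBy ℤ W.Point ((3 : ℕ) : ℤ)) ∧
      Nat.card (Submodule.torsionBy ℤ W.Point ((3 : ℕ) : ℤ)) ≤ 3 ^ 2 := by
  let g : Submodule.torsionBy ℤ W.Point ((3 : ℕ) : ℤ) → (t3_finset W : Finset (Option (F × F))) :=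
    fun P => ⟨t3_coords W P.1, t3_coords_mem W h3 ((Submodule.mem_torsionBy_iff _ _).1 P.2)⟩
  have hg : Function.Injective g := by
    intro P Q hPQ
    have := congrArg Subtype.val hPQ
    exact Subtype.ext (t3_coords_injective W this)
  refine ⟨Finite.of_injective g hg, ?_⟩
  have := Nat.card_le_card_of_injective g hg
  rw [Nat.card_eq_finsetCard] at this
  exact this.trans ((t3_finset_card_le W).trans (by norm_num))

end general

end Fermat.Agent.S51

namespace Fermat.Agent.S51

theorem t3_zmod3_cases : ∀ k : ZMod 3, k = 0 ∨ k = 1 ∨ k = 2 := by decide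

/-- Piece T3 of the S51 plan: the `3`-torsion of an elliptic curve over `ℚ` is nontrivial over
`ℚ̄`, and a Galois-stable line in it gives a rational root of `Ψ₃`. -/
theorem T3 (W : WeierstrassCurve ℚ) (hΔ : W.Δ ≠ 0) :
    Nontrivial (Submodule.torsionBy ℤ (W⁄(AlgebraicClosure ℚ)).Point ((3 : ℕ) : ℤ)) ∧
    ((∃ N : Submodule (ZMod 3) (Submodule.torsionBy ℤ (W⁄(AlgebraicClosure ℚ)).Point ((3 : ℕ) : ℤ)),
        IsGaloisStable ℚ N ∧ N ≠ ⊥ ∧ N ≠ ⊤) →
      ∃ x₃ : ℚ, W.Ψ₃.eval x₃ = 0) := by
  have h3 : (3 : AlgebraicClosure ℚ) ≠ 0 := by norm_num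
  have h2 : (2 : AlgebraicClosure ℚ) ≠ 0 := by norm_num
  have hΔ' : (W⁄(AlgebraicClosure ℚ)).Δ ≠ 0 := by
    change (W.map (algebraMap ℚ (AlgebraicClosure ℚ))).Δ ≠ 0
    rw [WeierstrassCurve.map_Δ]
    exact (_root_.map_ne_zero _).2 hΔ
  constructor
  · obtain ⟨x, y, h, hP⟩ := t3_exists_point (W⁄(AlgebraicClosure ℚ)) h3 h2 hΔ'
    refine ⟨⟨⟨Point.some x y h, (Submodule.mem_torsionBy_iff _ _).2 hP⟩, 0, ?_⟩⟩
    intro h0
    exact some_ne_zero h (congrArg Subtype.val h0)
  · rintro ⟨N, hstable, hbot, htop⟩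
    obtain ⟨hfin, hcard⟩ := t3_torsion_card_le (W⁄(AlgebraicClosure ℚ)) h3
    have : Fact (Nat.Prime 3) := ⟨Nat.prime_three⟩
    obtain ⟨P, hPN, hP0⟩ := Submodule.exists_mem_ne_zero_of_ne_bot hbot
    have hline := line_exists_smul hcard N hbot htop hPN hP0
    have hP3 : (3 : ℤ) • (P : (W⁄(AlgebraicClosure ℚ)).Point) = 0 :=
      (Submodule.mem_torsionBy_iff _ _).1 P.2
    have hP0' : (P : (W⁄(AlgebraicClosure ℚ)).Point) ≠ 0 := fun h => hP0 (Subtype.ext h)
    obtain ⟨P', hP'⟩ : ∃ P' : (W⁄(AlgebraicClosure ℚ)).Point, P' = P := ⟨_, rfl⟩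
    rcases P' with _ | ⟨x, y, h⟩
    · exact absurd hP'.symm hP0'
    have hx : (W⁄(AlgebraicClosure ℚ)).Ψ₃.eval x = 0 := by
      rw [← hP'] at hP3
      exact (t3_three_zsmul_eq_zero_iff _ h).1 hP3
    -- Galois invariance of `x`
    have hfix : ∀ σ : AlgebraicClosure ℚ ≃ₐ[ℚ] AlgebraicClosure ℚ, σ x = x := by
      intro σ
      obtain ⟨k, hk⟩ := hline (σ • P) (hstable σ P hPN)
      have hk' : (σ • (P : (W⁄(AlgebraicClosure ℚ)).Point))
          = ((k • P : Submodule.torsionBy ℤ (W⁄(AlgebraicClosure ℚ)).Point ((3 : ℕ) : ℤ)) :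
              (W⁄(AlgebraicClosure ℚ)).Point) := congrArg Subtype.val hk
      rw [← hP'] at hk'
      obtain ⟨h', hmap⟩ : ∃ h', σ • (Point.some x y h : (W⁄(AlgebraicClosure ℚ)).Point)
          = Point.some (σ x) (σ y) h' := ⟨_, rfl⟩
      rw [hmap] at hk'
      have hPadd : (P : (W⁄(AlgebraicClosure ℚ)).Point) + P = -P := by
        rw [eq_neg_iff_add_eq_zero]
        have : (3 : ℤ) • (P : (W⁄(AlgebraicClosure ℚ)).Point) = P + P + P := by
          rw [show (3 : ℤ) = 1 + 1 + 1 by norm_num, add_zsmul, add_zsmul, one_zsmul]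
        rw [← this]; exact hP3
      rcases t3_zmod3_cases k with rfl | rfl | rfl
      · rw [zero_smul] at hk'
        exact absurd hk' (some_ne_zero _)
      · rw [one_smul, ← hP'] at hk'
        exact (Point.some.inj hk').1
      · rw [two_smul] at hk'
        have : ((P + P : Submodule.torsionBy ℤ (W⁄(AlgebraicClosure ℚ)).Point ((3 : ℕ) : ℤ)) :
            (W⁄(AlgebraicClosure ℚ)).Point) = -P := hPadd
        rw [this, ← hP', neg_some] at hk'
        exact (Point.some.inj hk').1
    obtain ⟨q, hq⟩ := galois_fixed_rat x hfix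
    refine ⟨q, ?_⟩
    have hmapΨ : (W⁄(AlgebraicClosure ℚ)).Ψ₃ = W.Ψ₃.map (algebraMap ℚ (AlgebraicClosure ℚ)) := by
      change (W.map (algebraMap ℚ (AlgebraicClosure ℚ))).Ψ₃ = _
      exact WeierstrassCurve.map_Ψ₃ W _
    rw [hmapΨ, ← hq, Polynomial.eval_map_algebraMap, Polynomial.aeval_algebraMap_apply] at hx
    exact (map_eq_zero_iff _ (algebraMap ℚ (AlgebraicClosure ℚ)).injective).1 hx

end Fermat.Agent.S51
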