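import Mathlib.AlgebraicGeometry.EllipticCurve.Affine.Point

/-!
# S51 shared lemmas: duplication formula on x-coordinates (pieces D0–D4)

`W` is a Weierstrass curve over a field `F` (in affine coordinates).
* `dup_x P` : the x-coordinate of a point (`0` for the point at infinity).
* `dup_Psi2Sq W x = 4x³ + b₂x² + 2b₄x + b₆`, `dup_Phi2 W x = x⁴ − b₄x² − 2b₆x − b₈`,
  `dup_Psi3 W x = 3x⁴ + b₂x³ + 3b₄x² + 3b₆x + b₈`.
-/

set_option autoImplicit false

namespace Fermat.Agent.S51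

open WeierstrassCurve WeierstrassCurve.Affine

variable {F : Type*} [Field F] (W : WeierstrassCurve.Affine F)

/-- The x-coordinate of a point (`0` for the point at infinity). -/
def dup_x : W.Point → F
  | .zero => 0
  | .some x _ _ => x

/-- `Ψ₂² = 4x³ + b₂x² + 2b₄x + b₆` as a function. -/
def dup_Psi2Sq (x : F) : F := 4 * x ^ 3 + W.b₂ * x ^ 2 + 2 * W.b₄ * x + W.b₆

/-- `Φ₂ = x⁴ − b₄x² − 2b₆x − b₈` as a function. -/
def dup_Phi2 (x : F) : F := x ^ 4 - W.b₄ * x ^ 2 - 2 * W.b₆ * x - W.b₈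

/-- `Ψ₃ = 3x⁴ + b₂x³ + 3b₄x² + 3b₆x + b₈` as a function. -/
def dup_Psi3 (x : F) : F := 3 * x ^ 4 + W.b₂ * x ^ 3 + 3 * W.b₄ * x ^ 2 + 3 * W.b₆ * x + W.b₈

@[simp] lemma dup_x_zero : dup_x W (0 : W.Point) = 0 := rfl

@[simp] lemma dup_x_some {x y : F} (h : W.Nonsingular x y) : dup_x W (Point.some x y h) = x := rfl

lemma dup_x_neg (P : W.Point) : dup_x W (-P) = dup_x W P := by
  cases P <;> rfl

/-- (D0) Every affine point of the curve is nonsingular when `Δ ≠ 0`. -/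
lemma dup_nonsingular_of_equation (hΔ : W.Δ ≠ 0) {x y : F} (h : W.Equation x y) :
    W.Nonsingular x y :=
  (W.equation_iff_nonsingular_of_Δ_ne_zero hΔ).1 h

/-- A nonzero point is `some x y h`. -/
lemma dup_exists_some_of_ne_zero {P : W.Point} (hP : P ≠ 0) :
    ∃ (x y : F) (h : W.Nonsingular x y), P = Point.some x y h := by
  cases P with
  | zero => exact absurd rfl hP
  | some x y h => exact ⟨x, y, h, rfl⟩

/-- On the curve, `Ψ₂²(x) = (y − negY x y)² = (2y + a₁x + a₃)²`. -/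
lemma dup_Psi2Sq_eq {x y : F} (h : W.Equation x y) :
    dup_Psi2Sq W x = (y - W.negY x y) ^ 2 := by
  rw [equation_iff] at h
  simp only [dup_Psi2Sq, negY, b₂, b₄, b₆]
  linear_combination (-4 : F) * h

/-- (D2) Two nonzero points with the same x-coordinate are equal or opposite. -/
lemma dup_eq_or_eq_neg_of_x_eq {P Q : W.Point} (hP : P ≠ 0) (hQ : Q ≠ 0)
    (h : dup_x W P = dup_x W Q) : P = Q ∨ P = -Q := by
  obtain ⟨x₁, y₁, h₁, rfl⟩ := dup_exists_some_of_ne_zero W hP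
  obtain ⟨x₂, y₂, h₂, rfl⟩ := dup_exists_some_of_ne_zero W hQ
  exact Point.X_eq_iff.1 h

variable [DecidableEq F]

/-- (D1a) `2P = 0 ⇔ y = negY x y`. -/
lemma dup_add_self_eq_zero_iff {x y : F} (h : W.Nonsingular x y) :
    Point.some x y h + Point.some x y h = 0 ↔ y = W.negY x y := by
  constructor
  · intro h0
    by_contra hy
    rw [Point.add_self_of_Y_ne hy] at h0
    exact Point.some_ne_zero _ h0
  · intro hy
    exact Point.add_self_of_Y_eq hy

/-- (D1a') `2P = 0 ⇔ Ψ₂²(x) = 0`. -/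
lemma dup_add_self_eq_zero_iff_Psi2Sq {x y : F} (h : W.Nonsingular x y) :
    Point.some x y h + Point.some x y h = 0 ↔ dup_Psi2Sq W x = 0 := by
  rw [dup_add_self_eq_zero_iff, dup_Psi2Sq_eq W h.1, sq_eq_zero_iff, sub_eq_zero]

/-- (D1b) the duplication formula `x(2P)·Ψ₂²(x) = Φ₂(x)` for `P = (x, y)` with `2P ≠ 0`. -/
lemma dup_x_add_self_some {x y : F} (h : W.Nonsingular x y) (hy : y ≠ W.negY x y) :
    dup_x W (Point.some x y h + Point.some x y h) * dup_Psi2Sq W x = dup_Phi2 W x := by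
  rw [Point.add_self_of_Y_ne hy, dup_x_some, dup_Psi2Sq_eq W h.1, slope_of_Y_ne rfl hy]
  have hne : y - W.negY x y ≠ 0 := sub_ne_zero.2 hy
  have heq := h.1
  rw [equation_iff] at heq
  simp only [addX, dup_Phi2, b₄, b₆, b₈]
  field_simp
  simp only [negY]
  linear_combination (-(8 * x + W.a₁ ^ 2 + 4 * W.a₂)) * heq


/-- (D1b, point form) `x(2P)·Ψ₂²(x(P)) = Φ₂(x(P))` whenever `2P ≠ 0`. -/
lemma dup_x_add_self {P : W.Point} (h2 : P + P ≠ 0) :
    dup_x W (P + P) * dup_Psi2Sq W (dup_x W P) = dup_Phi2 W (dup_x W P) := by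
  have hP : P ≠ 0 := fun h => h2 (by rw [h, add_zero])
  obtain ⟨x, y, h, rfl⟩ := dup_exists_some_of_ne_zero W hP
  have hy : y ≠ W.negY x y := fun hy => h2 ((dup_add_self_eq_zero_iff W h).2 hy)
  exact dup_x_add_self_some W h hy

/-- (D1c, point form) `Ψ₂²(x(P)) ≠ 0` whenever `2P ≠ 0`. -/
lemma dup_Psi2Sq_ne_zero {P : W.Point} (h2 : P + P ≠ 0) :
    dup_Psi2Sq W (dup_x W P) ≠ 0 := by
  have hP : P ≠ 0 := fun h => h2 (by rw [h, add_zero])
  obtain ⟨x, y, h, rfl⟩ := dup_exists_some_of_ne_zero W hP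
  exact fun h0 => h2 ((dup_add_self_eq_zero_iff_Psi2Sq W h).2 h0)

omit [DecidableEq F] in
/-- (D3, identity) `Φ₂ − X·Ψ₂² = −Ψ₃`. -/
lemma dup_Phi2_sub (x : F) : dup_Phi2 W x - x * dup_Psi2Sq W x = -dup_Psi3 W x := by
  simp only [dup_Phi2, dup_Psi2Sq, dup_Psi3]
  ring

/-- (D3') for `2P ≠ 0`: `x(2P) = x(P) ⇔ Ψ₃(x(P)) = 0`. -/
lemma dup_x_add_self_eq_iff {P : W.Point} (h2 : P + P ≠ 0) :
    dup_x W (P + P) = dup_x W P ↔ dup_Psi3 W (dup_x W P) = 0 := by
  have h1 := dup_x_add_self W h2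
  have h3 := dup_Phi2_sub W (dup_x W P)
  have hne := dup_Psi2Sq_ne_zero W h2
  constructor
  · intro h
    rw [h] at h1
    have : -dup_Psi3 W (dup_x W P) = 0 := by rw [← h3, ← h1]; ring
    exact neg_eq_zero.1 this
  · intro h
    have : (dup_x W (P + P) - dup_x W P) * dup_Psi2Sq W (dup_x W P) = 0 := by
      have : (dup_x W (P + P) - dup_x W P) * dup_Psi2Sq W (dup_x W P)
          = -dup_Psi3 W (dup_x W P) := by rw [← h3, ← h1]; ring
      rw [this, h, neg_zero]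
    exact sub_eq_zero.1 ((mul_eq_zero.1 this).resolve_right hne)

omit [DecidableEq F] in
/-- (D4, Bezout identity, integral form) with `t = 12x + b₂`:
`48(t² − 4c₄)·Φ₂ + (4b₂(t² − 4c₄) − t³ − 5c₄t − 18c₆)·Ψ₂² = −144Δ`. -/
lemma dup_bezout (x : F) :
    48 * ((12 * x + W.b₂) ^ 2 - 4 * W.c₄) * dup_Phi2 W x
      + (4 * W.b₂ * ((12 * x + W.b₂) ^ 2 - 4 * W.c₄) - (12 * x + W.b₂) ^ 3
          - 5 * W.c₄ * (12 * x + W.b₂) - 18 * W.c₆) * dup_Psi2Sq W x
      = -144 * W.Δ := by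
  simp only [dup_Phi2, dup_Psi2Sq, WeierstrassCurve.Δ, WeierstrassCurve.c₄, WeierstrassCurve.c₆,
    WeierstrassCurve.b₂, WeierstrassCurve.b₄, WeierstrassCurve.b₆, WeierstrassCurve.b₈]
  ring

omit [DecidableEq F] in
/-- (D4) `Φ₂` and `Ψ₂²` have no common zero when `Δ ≠ 0` (characteristic zero). -/
lemma dup_not_Phi2_and_Psi2Sq [CharZero F] (hΔ : W.Δ ≠ 0) (x : F)
    (h1 : dup_Phi2 W x = 0) (h2 : dup_Psi2Sq W x = 0) : False := by
  have h := dup_bezout W x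
  rw [h1, h2, mul_zero, mul_zero, add_zero] at h
  have h144 : (-144 : F) ≠ 0 := by norm_num
  exact hΔ ((mul_eq_zero.1 h.symm).resolve_left h144)

omit [DecidableEq F] in
/-- `Ψ₃` and `Ψ₂²` have no common zero when `Δ ≠ 0` (characteristic zero). -/
lemma dup_not_Psi3_and_Psi2Sq [CharZero F] (hΔ : W.Δ ≠ 0) (x : F)
    (h1 : dup_Psi3 W x = 0) (h2 : dup_Psi2Sq W x = 0) : False := by
  refine dup_not_Phi2_and_Psi2Sq W hΔ x ?_ h2
  have h3 := dup_Phi2_sub W x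
  rw [h1, h2, mul_zero, sub_zero, neg_zero] at h3
  exact h3

/-- (D3) For `P = (x, y)`: `3P = 0 ⇔ Ψ₃(x) = 0` (characteristic zero, `Δ ≠ 0`). -/
lemma dup_three_zsmul_eq_zero_iff [CharZero F] (hΔ : W.Δ ≠ 0) {P : W.Point} (hP : P ≠ 0) :
    (3 : ℤ) • P = 0 ↔ dup_Psi3 W (dup_x W P) = 0 := by
  have h3 : (3 : ℤ) • P = P + P + P := by
    rw [show (3 : ℤ) = 1 + 1 + 1 by norm_num, add_smul, add_smul, one_smul]
  rw [h3]
  constructor
  · intro h
    have h2 : P + P ≠ 0 := by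
      intro h0
      rw [h0, zero_add] at h
      exact hP h
    rw [← dup_x_add_self_eq_iff W h2]
    have : P + P = -P := eq_neg_of_add_eq_zero_left h
    rw [this, dup_x_neg]
  · intro h
    have h2 : P + P ≠ 0 := by
      intro h0
      obtain ⟨x, y, hxy, rfl⟩ := dup_exists_some_of_ne_zero W hP
      exact dup_not_Psi3_and_Psi2Sq W hΔ x h ((dup_add_self_eq_zero_iff_Psi2Sq W hxy).1 h0)
    have hx := (dup_x_add_self_eq_iff W h2).2 h
    rcases dup_eq_or_eq_neg_of_x_eq W h2 hP hx with h' | h'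
    · exact absurd (by simpa using h' : P = 0) hP
    · rw [h', neg_add_cancel]

end Fermat.Agent.S51
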