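import Fermat.Statements.S51
import Fermat.Agent.S51.Dup

/-!
# S51 piece T5a: a Weierstrass curve with `Δ ≠ 0` over an algebraically closed field of
characteristic zero has a point of exact order 5.

`t5a_preΨ4 W x`, `t5a_Psi5 W x` are the evaluated division polynomials `preΨ₄`, `Ψ₅`.
Identities (characteristic zero, `A = Φ₂(x)`, `B = Ψ₂²(x)`):
* `t5a_idC` : `4A³ + b₂A²B + 2b₄AB² + b₆B³ = preΨ₄²`             (`Ψ₂²(x(2P))·B³ = preΨ₄²`)
* `t5a_idD` : `A⁴ − b₄A²B² − 2b₆AB³ − b₈B⁴ = x·preΨ₄²·B − Ψ₃·Ψ₅`   (`Φ₂(x(2P))·B⁴ = Φ₄`)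
Point forms: `t5a_Psi2Sq_double`, `t5a_x_four`.
Main results: `t5a_exists_order_five`, `T5a`.
-/

set_option autoImplicit false

namespace Fermat.Agent.S51

open WeierstrassCurve WeierstrassCurve.Affine

variable {F : Type*} [Field F] (W : WeierstrassCurve.Affine F)

/-- `preΨ₄` as a function. -/
def t5a_preΨ4 (x : F) : F :=
  2 * x ^ 6 + W.b₂ * x ^ 5 + 5 * W.b₄ * x ^ 4 + 10 * W.b₆ * x ^ 3 + 10 * W.b₈ * x ^ 2 +
    (W.b₂ * W.b₈ - W.b₄ * W.b₆) * x + (W.b₄ * W.b₈ - W.b₆ ^ 2)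

/-- `Ψ₅ = preΨ₄·Ψ₂Sq² − Ψ₃³` as a function. -/
def t5a_Psi5 (x : F) : F :=
  t5a_preΨ4 W x * dup_Psi2Sq W x ^ 2 - dup_Psi3 W x ^ 3

lemma t5a_eval_Ψ₂Sq (x : F) : (WeierstrassCurve.Ψ₂Sq W).eval x = dup_Psi2Sq W x := by
  simp [WeierstrassCurve.Ψ₂Sq, dup_Psi2Sq]

lemma t5a_eval_Ψ₃ (x : F) : (WeierstrassCurve.Ψ₃ W).eval x = dup_Psi3 W x := by
  simp [WeierstrassCurve.Ψ₃, dup_Psi3]

lemma t5a_eval_preΨ₄ (x : F) : (WeierstrassCurve.preΨ₄ W).eval x = t5a_preΨ4 W x := by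
  simp [WeierstrassCurve.preΨ₄, t5a_preΨ4]

lemma t5a_preΨ'_five :
    WeierstrassCurve.preΨ' W 5 =
      WeierstrassCurve.preΨ₄ W * WeierstrassCurve.Ψ₂Sq W ^ 2 - WeierstrassCurve.Ψ₃ W ^ 3 := by
  have h := WeierstrassCurve.preΨ'_odd W 0
  simpa using h

lemma t5a_eval_preΨ'_five (x : F) : (WeierstrassCurve.preΨ' W 5).eval x = t5a_Psi5 W x := by
  rw [t5a_preΨ'_five]
  simp [t5a_eval_Ψ₂Sq, t5a_eval_Ψ₃, t5a_eval_preΨ₄, t5a_Psi5]

section CharZero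

variable [CharZero F]

/-- Identity (I1): `4A³ + b₂A²B + 2b₄AB² + b₆B³ = preΨ₄²` with `A = Φ₂`, `B = Ψ₂²`. -/
theorem t5a_idC (x : F) :
    4 * dup_Phi2 W x ^ 3 + W.b₂ * dup_Phi2 W x ^ 2 * dup_Psi2Sq W x
      + 2 * W.b₄ * dup_Phi2 W x * dup_Psi2Sq W x ^ 2 + W.b₆ * dup_Psi2Sq W x ^ 3
      = t5a_preΨ4 W x ^ 2 := by
  have hb8 : W.b₈ = (W.b₂ * W.b₆ - W.b₄ ^ 2) / 4 := by
    have := W.b_relation
    field_simp
    linear_combination this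
  simp only [dup_Phi2, dup_Psi2Sq, t5a_preΨ4]
  rw [hb8]
  ring

/-- Identity (I2): `A⁴ − b₄A²B² − 2b₆AB³ − b₈B⁴ = x·preΨ₄²·B − Ψ₃·Ψ₅`. -/
theorem t5a_idD (x : F) :
    dup_Phi2 W x ^ 4 - W.b₄ * dup_Phi2 W x ^ 2 * dup_Psi2Sq W x ^ 2
      - 2 * W.b₆ * dup_Phi2 W x * dup_Psi2Sq W x ^ 3 - W.b₈ * dup_Psi2Sq W x ^ 4
      = x * t5a_preΨ4 W x ^ 2 * dup_Psi2Sq W x - dup_Psi3 W x * t5a_Psi5 W x := by
  have hb8 : W.b₈ = (W.b₂ * W.b₆ - W.b₄ ^ 2) / 4 := by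
    have := W.b_relation
    field_simp
    linear_combination this
  simp only [dup_Phi2, dup_Psi2Sq, t5a_preΨ4, dup_Psi3, t5a_Psi5]
  rw [hb8]
  ring

/-- If `x₂·Ψ₂²(x) = Φ₂(x)` then `Ψ₂²(x₂)·Ψ₂²(x)³ = preΨ₄(x)²`. -/
theorem t5a_Psi2Sq_of_dup {x x₂ : F} (h : x₂ * dup_Psi2Sq W x = dup_Phi2 W x) :
    dup_Psi2Sq W x₂ * dup_Psi2Sq W x ^ 3 = t5a_preΨ4 W x ^ 2 := by
  rw [← t5a_idC, ← h]
  simp only [dup_Psi2Sq]
  ring

/-- If `x₂·Ψ₂²(x) = Φ₂(x)` then `Φ₂(x₂)·Ψ₂²(x)⁴ = x·preΨ₄(x)²·Ψ₂²(x) − Ψ₃(x)·Ψ₅(x)`. -/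
theorem t5a_Phi2_of_dup {x x₂ : F} (h : x₂ * dup_Psi2Sq W x = dup_Phi2 W x) :
    dup_Phi2 W x₂ * dup_Psi2Sq W x ^ 4
      = x * t5a_preΨ4 W x ^ 2 * dup_Psi2Sq W x - dup_Psi3 W x * t5a_Psi5 W x := by
  rw [← t5a_idD, ← h]
  simp only [dup_Phi2, dup_Psi2Sq]
  ring

/-- If `x₂·Ψ₂²(x) = Φ₂(x)` and `x₄·Ψ₂²(x₂) = Φ₂(x₂)` then
`(x₄ − x)·preΨ₄(x)²·Ψ₂²(x) = −Ψ₃(x)·Ψ₅(x)`. -/
theorem t5a_x_four_of_dup {x x₂ x₄ : F} (h : x₂ * dup_Psi2Sq W x = dup_Phi2 W x)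
    (h' : x₄ * dup_Psi2Sq W x₂ = dup_Phi2 W x₂) :
    (x₄ - x) * t5a_preΨ4 W x ^ 2 * dup_Psi2Sq W x = -(dup_Psi3 W x * t5a_Psi5 W x) := by
  have h1 := t5a_Psi2Sq_of_dup W h
  have h2 := t5a_Phi2_of_dup W h
  linear_combination (-(x₄ * dup_Psi2Sq W x)) * h1 + h2 + (dup_Psi2Sq W x ^ 4) * h'

variable [DecidableEq F]

/-- Point form of (I1): `Ψ₂²(x(2P))·Ψ₂²(x(P))³ = preΨ₄(x(P))²` when `2P ≠ 0`. -/
theorem t5a_Psi2Sq_double {P : W.Point} (h2 : P + P ≠ 0) :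
    dup_Psi2Sq W (dup_x W (P + P)) * dup_Psi2Sq W (dup_x W P) ^ 3
      = t5a_preΨ4 W (dup_x W P) ^ 2 :=
  t5a_Psi2Sq_of_dup W (dup_x_add_self W h2)

/-- `preΨ₄(x(P)) ≠ 0` when `2P ≠ 0` and `4P ≠ 0`. -/
theorem t5a_preΨ4_ne_zero {P : W.Point} (h2 : P + P ≠ 0) (h4 : P + P + (P + P) ≠ 0) :
    t5a_preΨ4 W (dup_x W P) ≠ 0 := by
  intro h0
  have h := t5a_Psi2Sq_double W h2
  rw [h0] at h
  have hB := dup_Psi2Sq_ne_zero W h2
  have hB2 := dup_Psi2Sq_ne_zero W h4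
  have : dup_Psi2Sq W (dup_x W (P + P)) * dup_Psi2Sq W (dup_x W P) ^ 3 ≠ 0 :=
    mul_ne_zero hB2 (pow_ne_zero 3 hB)
  exact this (by rw [h]; ring)

/-- Point form of (I2): `(x(4P) − x(P))·preΨ₄²·Ψ₂² = −Ψ₃·Ψ₅` at `x = x(P)`,
when `2P ≠ 0` and `4P ≠ 0`. -/
theorem t5a_x_four {P : W.Point} (h2 : P + P ≠ 0) (h4 : P + P + (P + P) ≠ 0) :
    (dup_x W (P + P + (P + P)) - dup_x W P) * t5a_preΨ4 W (dup_x W P) ^ 2
        * dup_Psi2Sq W (dup_x W P)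
      = -(dup_Psi3 W (dup_x W P) * t5a_Psi5 W (dup_x W P)) :=
  t5a_x_four_of_dup W (dup_x_add_self W h2) (dup_x_add_self W h4)

/-- A point `P = (x, y)` with `Ψ₅(x) = 0` has order 5 (characteristic zero, `Δ ≠ 0`). -/
theorem t5a_five_zsmul_eq_zero_of_Psi5 (hΔ : W.Δ ≠ 0) {P : W.Point} (hP : P ≠ 0)
    (h5 : t5a_Psi5 W (dup_x W P) = 0) : (5 : ℤ) • P = 0 := by
  have hsmul : (5 : ℤ) • P = P + P + (P + P) + P := by
    rw [show (5 : ℤ) = 1 + 1 + (1 + 1) + 1 by norm_num, add_smul, add_smul, add_smul, one_smul]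
  obtain ⟨x, y, hxy, rfl⟩ := dup_exists_some_of_ne_zero W hP
  simp only [dup_x_some] at h5
  -- `2P ≠ 0`
  have h2 : Point.some x y hxy + Point.some x y hxy ≠ 0 := by
    intro h0
    have hB : dup_Psi2Sq W x = 0 := (dup_add_self_eq_zero_iff_Psi2Sq W hxy).1 h0
    have h3 : dup_Psi3 W x = 0 := by
      have : dup_Psi3 W x ^ 3 = 0 := by
        have h5' := h5
        rw [t5a_Psi5, hB] at h5'
        linear_combination -h5'
      exact pow_eq_zero_iff (by norm_num) |>.1 this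
    exact dup_not_Psi3_and_Psi2Sq W hΔ x h3 hB
  have hB : dup_Psi2Sq W x ≠ 0 := by
    have := dup_Psi2Sq_ne_zero W h2
    simpa using this
  have hdup := dup_x_add_self W h2
  simp only [dup_x_some] at hdup
  set Q := Point.some x y hxy + Point.some x y hxy with hQ
  -- `4P ≠ 0`
  have h4 : Q + Q ≠ 0 := by
    intro h0
    have hQ0 : Q ≠ 0 := h2
    obtain ⟨x₂, y₂, hxy₂, hQe⟩ := dup_exists_some_of_ne_zero W hQ0
    rw [hQe] at h0 hdup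
    simp only [dup_x_some] at hdup
    have hB2 : dup_Psi2Sq W x₂ = 0 := (dup_add_self_eq_zero_iff_Psi2Sq W hxy₂).1 h0
    have h14 := t5a_Psi2Sq_of_dup W hdup
    rw [hB2, zero_mul] at h14
    have hP4 : t5a_preΨ4 W x = 0 := pow_eq_zero_iff (by norm_num) |>.1 h14.symm
    have h3 : dup_Psi3 W x = 0 := by
      have : dup_Psi3 W x ^ 3 = 0 := by
        have h5' := h5
        rw [t5a_Psi5, hP4] at h5'
        linear_combination -h5'
      exact pow_eq_zero_iff (by norm_num) |>.1 this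
    -- then `x₂ = x`, so `Ψ₂²(x) = Ψ₂²(x₂) = 0`
    have hx : x₂ = x := by
      have h3' := dup_Phi2_sub W x
      rw [h3, neg_zero] at h3'
      have : (x₂ - x) * dup_Psi2Sq W x = 0 := by linear_combination hdup + h3'
      exact sub_eq_zero.1 ((mul_eq_zero.1 this).resolve_right hB)
    rw [hx] at hB2
    exact hB hB2
  have hP4 : t5a_preΨ4 W x ≠ 0 := by
    have := t5a_preΨ4_ne_zero W h2 h4
    simpa using this
  -- `x(4P) = x(P)`
  have hx4 := t5a_x_four W h2 h4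
  simp only [dup_x_some] at hx4
  rw [h5, mul_zero, neg_zero] at hx4
  have hx4' : dup_x W (Q + Q) = x := by
    have h1 : (dup_x W (Q + Q) - x) = 0 := by
      rcases mul_eq_zero.1 hx4 with h | h
      · rcases mul_eq_zero.1 h with h | h
        · exact h
        · exact absurd (pow_eq_zero_iff (by norm_num) |>.1 h) hP4
      · exact absurd h hB
    exact sub_eq_zero.1 h1
  have hx4'' : dup_x W (Q + Q) = dup_x W (Point.some x y hxy) := by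
    rw [hx4', dup_x_some]
  rcases dup_eq_or_eq_neg_of_x_eq W h4 (Point.some_ne_zero hxy) hx4'' with h | h
  · -- `4P = P`, so `3P = 0`, so `Ψ₃(x) = 0`; contradiction
    exfalso
    have h3P : (3 : ℤ) • Point.some x y hxy = 0 := by
      have e : (3 : ℤ) • Point.some x y hxy
          = Q + Q - Point.some x y hxy := by
        rw [hQ, show (3 : ℤ) = 1 + 1 + 1 by norm_num, add_smul, add_smul, one_smul]
        abel
      rw [e, h, sub_self]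
    have h3 : dup_Psi3 W x = 0 := by
      have := (dup_three_zsmul_eq_zero_iff W hΔ (Point.some_ne_zero hxy)).1 h3P
      simpa using this
    have h5' := h5
    rw [t5a_Psi5, h3] at h5'
    have : t5a_preΨ4 W x * dup_Psi2Sq W x ^ 2 = 0 := by linear_combination h5'
    rcases mul_eq_zero.1 this with h | h
    · exact hP4 h
    · exact hB (pow_eq_zero_iff (by norm_num) |>.1 h)
  · rw [hsmul, h, neg_add_cancel]

/-- Conversely, a nonzero point `P` with `5P = 0` has `Ψ₅(x(P)) = 0`. -/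
theorem t5a_Psi5_of_five_zsmul_eq_zero (hΔ : W.Δ ≠ 0) {P : W.Point} (hP : P ≠ 0)
    (h5 : (5 : ℤ) • P = 0) : t5a_Psi5 W (dup_x W P) = 0 := by
  have hsmul : (5 : ℤ) • P = P + P + (P + P) + P := by
    rw [show (5 : ℤ) = 1 + 1 + (1 + 1) + 1 by norm_num, add_smul, add_smul, add_smul, one_smul]
  rw [hsmul] at h5
  have h4 : P + P + (P + P) ≠ 0 := by
    intro h0
    rw [h0, zero_add] at h5
    exact hP h5
  have h2 : P + P ≠ 0 := by
    intro h0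
    rw [h0, add_zero] at h4
    exact h4 rfl
  have h4' : P + P + (P + P) = -P := eq_neg_of_add_eq_zero_left h5
  have hx := t5a_x_four W h2 h4
  rw [h4', dup_x_neg, sub_self, zero_mul, zero_mul] at hx
  have hx' : dup_Psi3 W (dup_x W P) * t5a_Psi5 W (dup_x W P) = 0 := by
    linear_combination hx
  rcases mul_eq_zero.1 hx' with h | h
  · exfalso
    have h3 := (dup_three_zsmul_eq_zero_iff W hΔ hP).2 h
    have h3' : P + P + P = 0 := by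
      have e : (3 : ℤ) • P = P + P + P := by
        rw [show (3 : ℤ) = 1 + 1 + 1 by norm_num, add_smul, add_smul, one_smul]
      rw [← e]; exact h3
    have : P + P = 0 := by
      have e : P + P = (P + P + (P + P) + P) - (P + P + P) := by abel
      rw [e, h5, h3', sub_zero]
    exact h2 this
  · exact h

/-- For `P ≠ 0`: `5P = 0 ⇔ Ψ₅(x(P)) = 0` (characteristic zero, `Δ ≠ 0`). -/
theorem t5a_five_zsmul_eq_zero_iff (hΔ : W.Δ ≠ 0) {P : W.Point} (hP : P ≠ 0) :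
    (5 : ℤ) • P = 0 ↔ t5a_Psi5 W (dup_x W P) = 0 :=
  ⟨t5a_Psi5_of_five_zsmul_eq_zero W hΔ hP, t5a_five_zsmul_eq_zero_of_Psi5 W hΔ hP⟩

/-- (T5a, general form) Over an algebraically closed field of characteristic zero, a Weierstrass
curve with `Δ ≠ 0` has a point of exact order 5. -/
theorem t5a_exists_order_five [IsAlgClosed F] (hΔ : W.Δ ≠ 0) :
    ∃ P : W.Point, P ≠ 0 ∧ (5 : ℤ) • P = 0 := by
  -- a root of `Ψ₅`
  have h5ne : ((5 : ℕ) : F) ≠ 0 := by norm_num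
  have hdeg : (WeierstrassCurve.preΨ' W 5).degree ≠ 0 := by
    have hpos := WeierstrassCurve.natDegree_preΨ'_pos W (n := 5) (by norm_num) h5ne
    intro h0
    have := Polynomial.natDegree_eq_zero_iff_degree_le_zero.2 (le_of_eq h0)
    omega
  obtain ⟨x, hx⟩ := IsAlgClosed.exists_root (WeierstrassCurve.preΨ' W 5) hdeg
  rw [Polynomial.IsRoot.def, t5a_eval_preΨ'_five] at hx
  -- a point with this x-coordinate
  obtain ⟨y, hy⟩ : ∃ y : F, y ^ 2 + (W.a₁ * x + W.a₃) * y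
      - (x ^ 3 + W.a₂ * x ^ 2 + W.a₄ * x + W.a₆) = 0 := by
    have hq : (Polynomial.X ^ 2 + Polynomial.C (W.a₁ * x + W.a₃) * Polynomial.X
        - Polynomial.C (x ^ 3 + W.a₂ * x ^ 2 + W.a₄ * x + W.a₆) : Polynomial F).degree ≠ 0 := by
      have : (Polynomial.X ^ 2 + Polynomial.C (W.a₁ * x + W.a₃) * Polynomial.X
        - Polynomial.C (x ^ 3 + W.a₂ * x ^ 2 + W.a₄ * x + W.a₆) : Polynomial F).degree = 2 := by
        compute_degree!
      rw [this]; norm_num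
    obtain ⟨y, hy⟩ := IsAlgClosed.exists_root _ hq
    refine ⟨y, ?_⟩
    simpa using hy
  have heq : W.Equation x y := by
    rw [equation_iff]
    linear_combination hy
  have hns : W.Nonsingular x y := dup_nonsingular_of_equation W hΔ heq
  refine ⟨Point.some x y hns, Point.some_ne_zero hns, ?_⟩
  exact t5a_five_zsmul_eq_zero_of_Psi5 W hΔ (Point.some_ne_zero hns) (by simpa using hx)

end CharZero

/-- (T5a) `E[5]` is nontrivial for `E = W⁄ℚ̄`, `Δ(W) ≠ 0`. -/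
theorem T5a (W : WeierstrassCurve ℚ) (hΔ : W.Δ ≠ 0) :
    Nontrivial (Submodule.torsionBy ℤ (W⁄(AlgebraicClosure ℚ)).Point ((5 : ℕ) : ℤ)) := by
  have hΔ' : (W.baseChange (AlgebraicClosure ℚ)).Δ ≠ 0 := by
    rw [WeierstrassCurve.baseChange, WeierstrassCurve.map_Δ]
    exact (map_ne_zero_iff _ (algebraMap ℚ (AlgebraicClosure ℚ)).injective).2 hΔ
  obtain ⟨P, hP0, hP5⟩ :=
    t5a_exists_order_five (W.baseChange (AlgebraicClosure ℚ)).toAffine hΔ'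
  refine ⟨⟨⟨P, ?_⟩, 0, ?_⟩⟩
  · rw [Submodule.mem_torsionBy_iff]
    exact_mod_cast hP5
  · intro h
    exact hP0 (congrArg Subtype.val h)

end Fermat.Agent.S51
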