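import Mathlib.AlgebraicGeometry.EllipticCurve.Affine.Point
import Fermat.Agent.S51.Dup

/-!
# S51, piece T5b, part 1: x-coordinates of a point of order 5

For `0 ≠ P` with `5P = 0`, `x₁ = x(P)` and `x₂ = x(2P)` satisfy
`x₁ ≠ x₂`, `x₂·Ψ₂²(x₁) = Φ₂(x₁)`, `x₁·Ψ₂²(x₂) = Φ₂(x₂)`, `Ψ₂²(x₁) ≠ 0`, `Ψ₂²(x₂) ≠ 0`.
-/

set_option autoImplicit false

namespace Fermat.Agent.S51

open WeierstrassCurve WeierstrassCurve.Affine

variable {F : Type*} [Field F] [DecidableEq F] (W : WeierstrassCurve.Affine F)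

lemma t5b_five_zsmul (P : W.Point) : (5 : ℤ) • P = P + (P + P) + (P + P) := by
  rw [show (5 : ℤ) = 1 + (1 + 1) + (1 + 1) by norm_num, add_smul, add_smul, add_smul, one_smul]

lemma t5b_two_ne_zero {P : W.Point} (h5 : (5 : ℤ) • P = 0) (hP : P ≠ 0) : P + P ≠ 0 := by
  intro h
  rw [t5b_five_zsmul, h, add_zero, add_zero] at h5
  exact hP h5

lemma t5b_four_eq_neg {P : W.Point} (h5 : (5 : ℤ) • P = 0) : (P + P) + (P + P) = -P := by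
  rw [t5b_five_zsmul, add_assoc] at h5
  exact (neg_eq_of_add_eq_zero_right h5).symm

lemma t5b_four_ne_zero {P : W.Point} (h5 : (5 : ℤ) • P = 0) (hP : P ≠ 0) :
    (P + P) + (P + P) ≠ 0 := by
  rw [t5b_four_eq_neg W h5]
  exact neg_ne_zero.2 hP

lemma t5b_x_ne {P : W.Point} (h5 : (5 : ℤ) • P = 0) (hP : P ≠ 0) :
    dup_x W P ≠ dup_x W (P + P) := by
  intro h
  have h2 := t5b_two_ne_zero W h5 hP
  rcases dup_eq_or_eq_neg_of_x_eq W hP h2 h with h' | h'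
  · exact hP (by simpa using h')
  · -- `P = -(P + P)`, so `3P = 0`, hence `P = 0`
    have h3 : P + (P + P) = 0 := by
      nth_rewrite 1 [h']
      exact neg_add_cancel _
    rw [t5b_five_zsmul, h3, zero_add] at h5
    exact h2 h5

/-- `x(2P)·Ψ₂²(x(P)) = Φ₂(x(P))` for a point of order 5. -/
lemma t5b_rel₁ {P : W.Point} (h5 : (5 : ℤ) • P = 0) (hP : P ≠ 0) :
    dup_x W (P + P) * dup_Psi2Sq W (dup_x W P) = dup_Phi2 W (dup_x W P) :=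
  dup_x_add_self W (t5b_two_ne_zero W h5 hP)

/-- `x(P)·Ψ₂²(x(2P)) = Φ₂(x(2P))` for a point of order 5. -/
lemma t5b_rel₂ {P : W.Point} (h5 : (5 : ℤ) • P = 0) (hP : P ≠ 0) :
    dup_x W P * dup_Psi2Sq W (dup_x W (P + P)) = dup_Phi2 W (dup_x W (P + P)) := by
  have h := dup_x_add_self W (t5b_four_ne_zero W h5 hP)
  rwa [t5b_four_eq_neg W h5, dup_x_neg] at h

lemma t5b_Psi_ne₁ {P : W.Point} (h5 : (5 : ℤ) • P = 0) (hP : P ≠ 0) :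
    dup_Psi2Sq W (dup_x W P) ≠ 0 :=
  dup_Psi2Sq_ne_zero W (t5b_two_ne_zero W h5 hP)

lemma t5b_Psi_ne₂ {P : W.Point} (h5 : (5 : ℤ) • P = 0) (hP : P ≠ 0) :
    dup_Psi2Sq W (dup_x W (P + P)) ≠ 0 :=
  dup_Psi2Sq_ne_zero W (t5b_four_ne_zero W h5 hP)

/-- For `Q` of order 5 and a nonzero multiple `R = n • Q`, the pair `(x(R), x(2R))` is
`(x(Q), x(2Q))` or `(x(2Q), x(Q))`. -/
lemma t5b_x_multiple {Q R : W.Point} (h5 : (5 : ℤ) • Q = 0) (n : ℕ) (hR : R = n • Q)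
    (hR0 : R ≠ 0) :
    (dup_x W R = dup_x W Q ∧ dup_x W (R + R) = dup_x W (Q + Q)) ∨
      (dup_x W R = dup_x W (Q + Q) ∧ dup_x W (R + R) = dup_x W Q) := by
  have h4 := t5b_four_eq_neg W h5
  have h5n : (5 : ℕ) • Q = 0 := by
    rw [← natCast_zsmul]
    exact_mod_cast h5
  have hmod : n • Q = (n % 5) • Q := by
    conv_lhs => rw [← Nat.div_add_mod n 5]
    rw [add_nsmul, mul_comm, mul_nsmul', h5n, nsmul_zero, zero_add]
  rw [hmod] at hR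
  have hlt : n % 5 < 5 := Nat.mod_lt _ (by norm_num)
  generalize n % 5 = r at hR hlt
  interval_cases r
  · exact absurd (by rw [hR, zero_nsmul]) hR0
  · left
    rw [one_nsmul] at hR
    subst hR
    exact ⟨rfl, rfl⟩
  · right
    rw [two_nsmul] at hR
    subst hR
    exact ⟨rfl, by rw [h4, dup_x_neg]⟩
  · right
    have h3 : (3 : ℕ) • Q = -(Q + Q) := by
      have : (3 : ℕ) • Q = Q + (Q + Q) := by
        rw [show (3 : ℕ) = 1 + 2 by norm_num, add_nsmul, one_nsmul, two_nsmul]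
      rw [this]
      have h0 : Q + (Q + Q) + (Q + Q) = 0 := by rw [← t5b_five_zsmul]; exact h5
      exact eq_neg_of_add_eq_zero_left h0
    rw [h3] at hR
    subst hR
    refine ⟨dup_x_neg W _, ?_⟩
    rw [← neg_add, h4, neg_neg]
  · left
    have h4' : (4 : ℕ) • Q = -Q := by
      rw [show (4 : ℕ) = 2 + 2 by norm_num, add_nsmul, two_nsmul, h4]
    rw [h4'] at hR
    subst hR
    refine ⟨dup_x_neg W _, ?_⟩
    rw [← neg_add, dup_x_neg]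

omit [DecidableEq F] in
/-- The two symmetric equations in `s = x₁ + x₂`, `m = x₁x₂` obtained from
`x₂·Ψ₂²(x₁) = Φ₂(x₁)` and `x₁·Ψ₂²(x₂) = Φ₂(x₂)` with `x₁ ≠ x₂`. -/
lemma t5b_sym_eqs {x₁ x₂ : F} (hne : x₁ ≠ x₂)
    (h₁ : x₂ * dup_Psi2Sq W x₁ = dup_Phi2 W x₁) (h₂ : x₁ * dup_Psi2Sq W x₂ = dup_Phi2 W x₂) :
    (x₁ + x₂) ^ 2 - 4 * (x₁ * x₂) ≠ 0 ∧
    (x₁ + x₂) ^ 3 - 6 * (x₁ * x₂) * (x₁ + x₂) - W.b₂ * (x₁ * x₂) - W.b₄ * (x₁ + x₂) - W.b₆ = 0 ∧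
    (x₁ + x₂) ^ 4 - 8 * (x₁ * x₂) * (x₁ + x₂) ^ 2 + 10 * (x₁ * x₂) ^ 2
      - W.b₂ * (x₁ * x₂) * (x₁ + x₂) - W.b₄ * (x₁ + x₂) ^ 2 - 2 * W.b₄ * (x₁ * x₂)
      - 3 * W.b₆ * (x₁ + x₂) - 2 * W.b₈ = 0 := by
  have hd : x₁ - x₂ ≠ 0 := sub_ne_zero.2 hne
  simp only [dup_Psi2Sq, dup_Phi2] at h₁ h₂
  refine ⟨?_, ?_, ?_⟩
  · have : (x₁ + x₂) ^ 2 - 4 * (x₁ * x₂) = (x₁ - x₂) ^ 2 := by ring
    rw [this]
    exact pow_ne_zero 2 hd
  · have : (x₁ - x₂) * ((x₁ + x₂) ^ 3 - 6 * (x₁ * x₂) * (x₁ + x₂) - W.b₂ * (x₁ * x₂)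
        - W.b₄ * (x₁ + x₂) - W.b₆) = 0 := by
      linear_combination h₂ - h₁
    exact (mul_eq_zero.1 this).resolve_left hd
  · linear_combination -h₁ - h₂

end Fermat.Agent.S51
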