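import Mathlib
import Fermat.Agent.S51.Dup
import Fermat.Agent.S51.T5bTorsion

/-!
# S51, piece T5b, part 2: at most 33 points of order dividing 5

The x-coordinate of a point of order 5 is a root of the degree 16 polynomial
`G = Num − X·Den` ("`D(D(x)) = x`" with denominators cleared), hence `E[5]` is finite with at most
`1 + 2·16` elements.
-/

set_option autoImplicit false

namespace Fermat.Agent.S51

open WeierstrassCurve WeierstrassCurve.Affine Polynomial

variable {F : Type*} [Field F] (W : WeierstrassCurve.Affine F)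

/-- `Ψ₂²` as a polynomial. -/
noncomputable def t5b_PsiP : F[X] := 4 * X ^ 3 + C W.b₂ * X ^ 2 + 2 * C W.b₄ * X + C W.b₆

/-- `Φ₂` as a polynomial. -/
noncomputable def t5b_PhiP : F[X] := X ^ 4 - C W.b₄ * X ^ 2 - 2 * C W.b₆ * X - C W.b₈

/-- The polynomial `Ψ₂²(x)⁴·Φ₂(D(x)) − x·Ψ₂²(x)⁴·Ψ₂²(D(x))`, `D = Φ₂/Ψ₂²`. -/
noncomputable def t5b_G : F[X] :=
  (t5b_PhiP W ^ 4 - C W.b₄ * t5b_PhiP W ^ 2 * t5b_PsiP W ^ 2
      - 2 * C W.b₆ * t5b_PhiP W * t5b_PsiP W ^ 3 - C W.b₈ * t5b_PsiP W ^ 4)
    - X * (t5b_PsiP W * (4 * t5b_PhiP W ^ 3 + C W.b₂ * t5b_PhiP W ^ 2 * t5b_PsiP W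
      + 2 * C W.b₄ * t5b_PhiP W * t5b_PsiP W ^ 2 + C W.b₆ * t5b_PsiP W ^ 3))

lemma t5b_eval_PsiP (x : F) : (t5b_PsiP W).eval x = dup_Psi2Sq W x := by
  simp [t5b_PsiP, dup_Psi2Sq]

lemma t5b_eval_PhiP (x : F) : (t5b_PhiP W).eval x = dup_Phi2 W x := by
  simp [t5b_PhiP, dup_Phi2]

lemma t5b_natDegree_PsiP_le : (t5b_PsiP W).natDegree ≤ 3 := by
  unfold t5b_PsiP
  compute_degree

lemma t5b_natDegree_PhiP_le : (t5b_PhiP W).natDegree ≤ 4 := by
  unfold t5b_PhiP
  compute_degree

lemma t5b_coeff_PsiP : (t5b_PsiP W).coeff 3 = 4 := by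
  simp [t5b_PsiP]

lemma t5b_coeff_PhiP : (t5b_PhiP W).coeff 4 = 1 := by
  simp [t5b_PhiP]

lemma t5b_natDegree_G_le : (t5b_G W).natDegree ≤ 16 := by
  have h3 := t5b_natDegree_PsiP_le W
  have h4 := t5b_natDegree_PhiP_le W
  unfold t5b_G
  compute_degree
  omega


lemma t5b_natDegree_G [CharZero F] : (t5b_G W).natDegree = 16 := by
  unfold t5b_G t5b_PhiP t5b_PsiP
  compute_degree!

lemma t5b_G_ne_zero [CharZero F] : t5b_G W ≠ 0 := by
  intro h
  have := t5b_natDegree_G W
  rw [h, natDegree_zero] at this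
  exact absurd this (by norm_num)

/-- If `x₂·Ψ₂²(x₁) = Φ₂(x₁)` and `x₁·Ψ₂²(x₂) = Φ₂(x₂)` then `x₁` is a root of `G`. -/
lemma t5b_eval_G {x₁ x₂ : F}
    (h₁ : x₂ * dup_Psi2Sq W x₁ = dup_Phi2 W x₁) (h₂ : x₁ * dup_Psi2Sq W x₂ = dup_Phi2 W x₂) :
    (t5b_G W).eval x₁ = 0 := by
  simp only [t5b_G, eval_sub, eval_mul, eval_add, eval_pow, eval_X, eval_C, eval_ofNat,
    t5b_eval_PsiP, t5b_eval_PhiP]
  rw [← h₁]
  simp only [dup_Psi2Sq, dup_Phi2] at h₂
  generalize dup_Psi2Sq W x₁ = ψ
  linear_combination (-ψ ^ 4) * h₂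

section Count

variable [DecidableEq F]

/-- The monic quadratic in `Y` cutting out the points of the curve above `x`. -/
noncomputable def t5b_quad (x : F) : F[X] :=
  X ^ 2 + C (W.a₁ * x + W.a₃) * X - C (x ^ 3 + W.a₂ * x ^ 2 + W.a₄ * x + W.a₆)

omit [DecidableEq F] in
lemma t5b_natDegree_quad (x : F) : (t5b_quad W x).natDegree = 2 := by
  unfold t5b_quad
  compute_degree!

omit [DecidableEq F] in
lemma t5b_quad_ne_zero (x : F) : t5b_quad W x ≠ 0 := by
  intro h
  have := t5b_natDegree_quad W x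
  rw [h, natDegree_zero] at this
  exact absurd this (by norm_num)

omit [DecidableEq F] in
lemma t5b_eval_quad {x y : F} (h : W.Equation x y) : (t5b_quad W x).eval y = 0 := by
  rw [equation_iff] at h
  simp only [t5b_quad, eval_sub, eval_add, eval_mul, eval_pow, eval_X, eval_C]
  linear_combination h

/-- The finite set of all `(x, y)` with `G(x) = 0` and `(x, y)` on the curve. -/
noncomputable def t5b_pairs : Finset (F × F) :=
  (t5b_G W).roots.toFinset.biUnion fun x => (t5b_quad W x).roots.toFinset.image fun y => (x, y)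

lemma t5b_card_pairs_le [CharZero F] : (t5b_pairs W).card ≤ 32 := by
  unfold t5b_pairs
  refine le_trans Finset.card_biUnion_le ?_
  have h1 : ∀ x ∈ (t5b_G W).roots.toFinset,
      ((t5b_quad W x).roots.toFinset.image fun y => (x, y)).card ≤ 2 := by
    intro x _
    refine le_trans Finset.card_image_le ?_
    refine le_trans (Multiset.toFinset_card_le _) ?_
    refine le_trans (card_roots' _) ?_
    rw [t5b_natDegree_quad]
  refine le_trans (Finset.sum_le_card_nsmul _ _ 2 h1) ?_
  have h2 : (t5b_G W).roots.toFinset.card ≤ 16 := by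
    refine le_trans (Multiset.toFinset_card_le _) ?_
    refine le_trans (card_roots' _) ?_
    rw [t5b_natDegree_G]
  rw [smul_eq_mul]
  omega

/-- The finite set of "codes" of points of order dividing 5. -/
noncomputable def t5b_codes : Finset (Option (F × F)) :=
  insert none ((t5b_pairs W).image some)

lemma t5b_card_codes_le [CharZero F] : (t5b_codes W).card ≤ 33 := by
  unfold t5b_codes
  refine le_trans (Finset.card_insert_le _ _) ?_
  have := le_trans (Finset.card_image_le (f := (some : F × F → Option (F × F)))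
    (s := t5b_pairs W)) (t5b_card_pairs_le W)
  omega

/-- The code of a point. -/
def t5b_code : W.Point → Option (F × F)
  | .zero => none
  | .some x y _ => some (x, y)

omit [DecidableEq F] in
lemma t5b_code_injective : Function.Injective (t5b_code W) := by
  rintro (_ | ⟨x₁, y₁, h₁⟩) (_ | ⟨x₂, y₂, h₂⟩) h
  · rfl
  · simp [t5b_code] at h
  · simp [t5b_code] at h
  · simp only [t5b_code, Option.some.injEq, Prod.mk.injEq] at h
    obtain ⟨rfl, rfl⟩ := h
    rfl

lemma t5b_code_mem [CharZero F] {P : W.Point} (h5 : (5 : ℤ) • P = 0) :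
    t5b_code W P ∈ t5b_codes W := by
  by_cases hP : P = 0
  · subst hP
    exact Finset.mem_insert_self _ _
  · have hroot : (t5b_G W).eval (dup_x W P) = 0 :=
      t5b_eval_G W (t5b_rel₁ W h5 hP) (t5b_rel₂ W h5 hP)
    obtain ⟨x, y, h, rfl⟩ := dup_exists_some_of_ne_zero W hP
    refine Finset.mem_insert_of_mem (Finset.mem_image_of_mem _ ?_)
    unfold t5b_pairs
    rw [Finset.mem_biUnion]
    refine ⟨x, ?_, Finset.mem_image_of_mem _ ?_⟩
    · rw [Multiset.mem_toFinset, mem_roots (t5b_G_ne_zero W)]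
      exact hroot
    · rw [Multiset.mem_toFinset, mem_roots (t5b_quad_ne_zero W x)]
      exact t5b_eval_quad W h.1

/-- `E[5]` is finite. -/
lemma t5b_finite_torsion [CharZero F] :
    Finite (Submodule.torsionBy ℤ W.Point (5 : ℤ)) := by
  let f : Submodule.torsionBy ℤ W.Point (5 : ℤ) → t5b_codes W :=
    fun P => ⟨t5b_code W P.1, t5b_code_mem W ((Submodule.mem_torsionBy_iff _ _).1 P.2)⟩
  have hf : Function.Injective f := by
    intro P Q h
    have : t5b_code W P.1 = t5b_code W Q.1 := congrArg Subtype.val h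
    exact Subtype.ext (t5b_code_injective W this)
  exact Finite.of_injective f hf

/-- `E[5]` has at most 33 elements. -/
lemma t5b_card_torsion_le [CharZero F] :
    Nat.card (Submodule.torsionBy ℤ W.Point (5 : ℤ)) ≤ 33 := by
  let f : Submodule.torsionBy ℤ W.Point (5 : ℤ) → t5b_codes W :=
    fun P => ⟨t5b_code W P.1, t5b_code_mem W ((Submodule.mem_torsionBy_iff _ _).1 P.2)⟩
  have hf : Function.Injective f := by
    intro P Q h
    have : t5b_code W P.1 = t5b_code W Q.1 := congrArg Subtype.val h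
    exact Subtype.ext (t5b_code_injective W this)
  have h1 := Nat.card_le_card_of_injective f hf
  have h2 : Nat.card (t5b_codes W) = (t5b_codes W).card := by
    rw [Nat.card_eq_fintype_card, Fintype.card_coe]
  rw [h2] at h1
  exact le_trans h1 (t5b_card_codes_le W)

end Count

end Fermat.Agent.S51
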