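import Mathlib
import Fermat.Prelude.Def_FLTPrelim_GaloisRep
import Fermat.Agent.S51.Dup
import Fermat.Agent.S51.T5bTorsion
import Fermat.Agent.S51.T5bCount
import Fermat.Agent.S51.Line
import Fermat.Agent.S51.GaloisFixed

/-!
# S51, piece T5b: a Galois-stable line in `E[5]` gives rational `s = x(P) + x(2P)`, `m = x(P)x(2P)`
-/

set_option autoImplicit false

open WeierstrassCurve WeierstrassCurve.Affine WeierstrassCurve.Affine.Point

namespace Fermat.Agent.S51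

section

variable (W : WeierstrassCurve ℚ)

example : CharZero (AlgebraicClosure ℚ) := inferInstance

/-- `E[5]` over `ℚ̄` is finite. -/
lemma t5b_finite :
    Finite (Submodule.torsionBy ℤ (W⁄(AlgebraicClosure ℚ)).Point ((5 : ℕ) : ℤ)) :=
  t5b_finite_torsion (W⁄(AlgebraicClosure ℚ))

instance t5b_fact_five : Fact (Nat.Prime 5) := ⟨by norm_num⟩

/-- `E[5]` over `ℚ̄` has at most 25 elements. -/
lemma t5b_card_le :
    Nat.card (Submodule.torsionBy ℤ (W⁄(AlgebraicClosure ℚ)).Point ((5 : ℕ) : ℤ)) ≤ 5 ^ 2 := by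
  have := t5b_finite W
  have h33 : Nat.card (Submodule.torsionBy ℤ (W⁄(AlgebraicClosure ℚ)).Point ((5 : ℕ) : ℤ)) ≤ 33 :=
    t5b_card_torsion_le (W⁄(AlgebraicClosure ℚ))
  have h := Module.natCard_eq_pow_finrank (K := ZMod 5)
    (V := Submodule.torsionBy ℤ (W⁄(AlgebraicClosure ℚ)).Point ((5 : ℕ) : ℤ))
  rw [Nat.card_zmod] at h
  rw [h] at h33 ⊢
  generalize Module.finrank (ZMod 5)
      (Submodule.torsionBy ℤ (W⁄(AlgebraicClosure ℚ)).Point ((5 : ℕ) : ℤ)) = d at h33 ⊢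
  have hd : d ≤ 2 := by
    by_contra hlt
    have h3 : 3 ≤ d := by omega
    have : 5 ^ 3 ≤ 5 ^ d := Nat.pow_le_pow_right (by norm_num) h3
    omega
  exact Nat.pow_le_pow_right (by norm_num) hd

/-- The x-coordinate is Galois-equivariant. -/
lemma t5b_x_smul (σ : AlgebraicClosure ℚ ≃ₐ[ℚ] AlgebraicClosure ℚ)
    (P : (W⁄(AlgebraicClosure ℚ)).Point) :
    dup_x (W⁄(AlgebraicClosure ℚ)) (σ • P) = σ (dup_x (W⁄(AlgebraicClosure ℚ)) P) := by
  cases P with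
  | zero => exact (_root_.map_zero σ).symm
  | some x y h => rfl

/-- The `ZMod 5`-action on `E[5]` in terms of the `ℕ`-action on points. -/
lemma t5b_coe_zmod_smul (k : ZMod 5)
    (P : Submodule.torsionBy ℤ (W⁄(AlgebraicClosure ℚ)).Point ((5 : ℕ) : ℤ)) :
    ((k • P : Submodule.torsionBy ℤ (W⁄(AlgebraicClosure ℚ)).Point ((5 : ℕ) : ℤ)) :
      (W⁄(AlgebraicClosure ℚ)).Point) = k.val • (P : (W⁄(AlgebraicClosure ℚ)).Point) := by
  have h : k • P = k.val • P := by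
    rw [← Nat.cast_smul_eq_nsmul (ZMod 5), ZMod.natCast_zmod_val]
  rw [h]
  rfl

/-- Piece T5b of the S51 plan. -/
theorem T5b (_hΔ : W.Δ ≠ 0) :
    (∃ N : Submodule (ZMod 5)
        (Submodule.torsionBy ℤ (W⁄(AlgebraicClosure ℚ)).Point ((5 : ℕ) : ℤ)),
        IsGaloisStable ℚ N ∧ N ≠ ⊥ ∧ N ≠ ⊤) →
      ∃ s m : ℚ, s ^ 2 - 4 * m ≠ 0 ∧
        s ^ 3 - 6 * m * s - W.b₂ * m - W.b₄ * s - W.b₆ = 0 ∧
        s ^ 4 - 8 * m * s ^ 2 + 10 * m ^ 2 - W.b₂ * m * s - W.b₄ * s ^ 2 - 2 * W.b₄ * m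
          - 3 * W.b₆ * s - 2 * W.b₈ = 0 := by
  rintro ⟨N, hstab, hbot, htop⟩
  have hfin := t5b_finite W
  obtain ⟨P, hPN, hP0⟩ := Submodule.exists_mem_ne_zero_of_ne_bot hbot
  have hline := line_exists_smul (p := 5) (t5b_card_le W) N hbot htop hPN hP0
  have h5 : (5 : ℤ) • (P : (W⁄(AlgebraicClosure ℚ)).Point) = 0 :=
    (Submodule.mem_torsionBy_iff _ _).1 P.2
  have hP0' : (P : (W⁄(AlgebraicClosure ℚ)).Point) ≠ 0 := fun h => hP0 (Subtype.ext h)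
  have key : ∀ σ : AlgebraicClosure ℚ ≃ₐ[ℚ] AlgebraicClosure ℚ,
      (σ (dup_x (W⁄(AlgebraicClosure ℚ)) (P : (W⁄(AlgebraicClosure ℚ)).Point))
          = dup_x (W⁄(AlgebraicClosure ℚ)) (P : (W⁄(AlgebraicClosure ℚ)).Point) ∧
        σ (dup_x (W⁄(AlgebraicClosure ℚ)) ((P : (W⁄(AlgebraicClosure ℚ)).Point) + P))
          = dup_x (W⁄(AlgebraicClosure ℚ)) ((P : (W⁄(AlgebraicClosure ℚ)).Point) + P)) ∨
      (σ (dup_x (W⁄(AlgebraicClosure ℚ)) (P : (W⁄(AlgebraicClosure ℚ)).Point))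
          = dup_x (W⁄(AlgebraicClosure ℚ)) ((P : (W⁄(AlgebraicClosure ℚ)).Point) + P) ∧
        σ (dup_x (W⁄(AlgebraicClosure ℚ)) ((P : (W⁄(AlgebraicClosure ℚ)).Point) + P))
          = dup_x (W⁄(AlgebraicClosure ℚ)) (P : (W⁄(AlgebraicClosure ℚ)).Point)) := by
    intro σ
    obtain ⟨k, hk⟩ := hline (σ • P) (hstab σ P hPN)
    have hk' : σ • (P : (W⁄(AlgebraicClosure ℚ)).Point)
        = k.val • (P : (W⁄(AlgebraicClosure ℚ)).Point) := by
      rw [← t5b_coe_zmod_smul, ← hk]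
      rfl
    have hne : σ • (P : (W⁄(AlgebraicClosure ℚ)).Point) ≠ 0 := by
      intro h0
      apply hP0'
      have h1 : σ⁻¹ • (σ • (P : (W⁄(AlgebraicClosure ℚ)).Point)) = P := inv_smul_smul σ _
      rw [h0] at h1
      exact h1.symm.trans rfl
    have := t5b_x_multiple (W⁄(AlgebraicClosure ℚ)) h5 k.val hk' hne
    rw [← smul_add, t5b_x_smul, t5b_x_smul] at this
    exact this
  obtain ⟨s, hs⟩ := galois_fixed_rat
    (dup_x (W⁄(AlgebraicClosure ℚ)) (P : (W⁄(AlgebraicClosure ℚ)).Point)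
      + dup_x (W⁄(AlgebraicClosure ℚ)) ((P : (W⁄(AlgebraicClosure ℚ)).Point) + P))
    (fun σ => by
      rcases key σ with ⟨h1, h2⟩ | ⟨h1, h2⟩
      · rw [map_add, h1, h2]
      · rw [map_add, h1, h2, add_comm])
  obtain ⟨m, hm⟩ := galois_fixed_rat
    (dup_x (W⁄(AlgebraicClosure ℚ)) (P : (W⁄(AlgebraicClosure ℚ)).Point)
      * dup_x (W⁄(AlgebraicClosure ℚ)) ((P : (W⁄(AlgebraicClosure ℚ)).Point) + P))
    (fun σ => by
      rcases key σ with ⟨h1, h2⟩ | ⟨h1, h2⟩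
      · rw [map_mul, h1, h2]
      · rw [map_mul, h1, h2, mul_comm])
  obtain ⟨e0, e1, e2⟩ := t5b_sym_eqs (W⁄(AlgebraicClosure ℚ))
    (t5b_x_ne (W⁄(AlgebraicClosure ℚ)) h5 hP0')
    (t5b_rel₁ (W⁄(AlgebraicClosure ℚ)) h5 hP0') (t5b_rel₂ (W⁄(AlgebraicClosure ℚ)) h5 hP0')
  rw [← hs, ← hm] at e0 e1 e2
  have hb₂ : (W⁄(AlgebraicClosure ℚ)).b₂ = algebraMap ℚ (AlgebraicClosure ℚ) W.b₂ :=
    WeierstrassCurve.map_b₂ W _
  have hb₄ : (W⁄(AlgebraicClosure ℚ)).b₄ = algebraMap ℚ (AlgebraicClosure ℚ) W.b₄ :=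
    WeierstrassCurve.map_b₄ W _
  have hb₆ : (W⁄(AlgebraicClosure ℚ)).b₆ = algebraMap ℚ (AlgebraicClosure ℚ) W.b₆ :=
    WeierstrassCurve.map_b₆ W _
  have hb₈ : (W⁄(AlgebraicClosure ℚ)).b₈ = algebraMap ℚ (AlgebraicClosure ℚ) W.b₈ :=
    WeierstrassCurve.map_b₈ W _
  rw [hb₂, hb₄, hb₆] at e1
  rw [hb₂, hb₄, hb₆, hb₈] at e2
  have hinj : Function.Injective (algebraMap ℚ (AlgebraicClosure ℚ)) :=
    (algebraMap ℚ (AlgebraicClosure ℚ)).injective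
  refine ⟨s, m, ?_, ?_, ?_⟩
  · intro h
    apply e0
    have := congrArg (algebraMap ℚ (AlgebraicClosure ℚ)) h
    simpa only [map_sub, map_pow, map_mul, map_ofNat, _root_.map_zero] using this
  · apply hinj
    simpa only [map_sub, map_pow, map_mul, map_ofNat, _root_.map_zero, map_add] using e1
  · apply hinj
    simpa only [map_sub, map_pow, map_mul, map_ofNat, _root_.map_zero, map_add] using e2

end

end Fermat.Agent.S51
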