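import Fermat.Statements.S51
import Fermat.Agent.S51.T5a
import Fermat.Agent.S51.T5b

/-!
# S51, piece T5 (assembled from T5a and T5b), exact statement of the S51 plan.
-/

set_option autoImplicit false

open WeierstrassCurve WeierstrassCurve.Affine WeierstrassCurve.Affine.Point

namespace Fermat.Agent.S51

theorem T5 (W : WeierstrassCurve ℚ) (hΔ : W.Δ ≠ 0) :
    Nontrivial (Submodule.torsionBy ℤ (W⁄(AlgebraicClosure ℚ)).Point ((5 : ℕ) : ℤ)) ∧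
    ((∃ N : Submodule (ZMod 5) (Submodule.torsionBy ℤ (W⁄(AlgebraicClosure ℚ)).Point ((5 : ℕ) : ℤ)),
        IsGaloisStable ℚ N ∧ N ≠ ⊥ ∧ N ≠ ⊤) →
      ∃ s m : ℚ, s ^ 2 - 4 * m ≠ 0 ∧
        s ^ 3 - 6 * m * s - W.b₂ * m - W.b₄ * s - W.b₆ = 0 ∧
        s ^ 4 - 8 * m * s ^ 2 + 10 * m ^ 2 - W.b₂ * m * s - W.b₄ * s ^ 2 - 2 * W.b₄ * m
          - 3 * W.b₆ * s - 2 * W.b₈ = 0) :=
  ⟨T5a W hΔ, T5b W hΔ⟩

end Fermat.Agent.S51
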