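import Fermat.Agent.S51.Dup

/-!
# S51 shared lemmas: the two polynomial identities behind `x(4P)`

With `D = Φ₂ / Ψ₂²` the duplication map on x-coordinates:
* (I1) `Ψ₂²(D(x)) · Ψ₂²(x)³ = preΨ₄(x)²`;
* (I2) `Φ₂(D(x)) · Ψ₂²(x)⁴ − x · Ψ₂²(x) · preΨ₄(x)² = −Ψ₃(x) · Ψ₅(x)`,
both in homogenised (denominator-free) form.
-/

set_option autoImplicit false

namespace Fermat.Agent.S51

open WeierstrassCurve WeierstrassCurve.Affine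

variable {F : Type*} [Field F] (W : WeierstrassCurve.Affine F)

/-- `preΨ₄ = 2x⁶ + b₂x⁵ + 5b₄x⁴ + 10b₆x³ + 10b₈x² + (b₂b₈ − b₄b₆)x + (b₄b₈ − b₆²)` as a function. -/
def dup_prePsi4 (x : F) : F :=
  2 * x ^ 6 + W.b₂ * x ^ 5 + 5 * W.b₄ * x ^ 4 + 10 * W.b₆ * x ^ 3 + 10 * W.b₈ * x ^ 2
    + (W.b₂ * W.b₈ - W.b₄ * W.b₆) * x + (W.b₄ * W.b₈ - W.b₆ ^ 2)

/-- `Ψ₅ = preΨ₄ · Ψ₂²² − Ψ₃³` as a function. -/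
def dup_Psi5 (x : F) : F :=
  dup_prePsi4 W x * dup_Psi2Sq W x ^ 2 - dup_Psi3 W x ^ 3

/-- (I1) homogenised: `4Φ₂³ + b₂Φ₂²Ψ₂² + 2b₄Φ₂Ψ₂²² + b₆Ψ₂²³ = preΨ₄²`. -/
lemma dup_I1 (x : F) :
    4 * dup_Phi2 W x ^ 3 + W.b₂ * dup_Phi2 W x ^ 2 * dup_Psi2Sq W x
      + 2 * W.b₄ * dup_Phi2 W x * dup_Psi2Sq W x ^ 2 + W.b₆ * dup_Psi2Sq W x ^ 3
      = dup_prePsi4 W x ^ 2 := by
  simp only [dup_Phi2, dup_Psi2Sq, dup_prePsi4, WeierstrassCurve.b₂, WeierstrassCurve.b₄,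
    WeierstrassCurve.b₆, WeierstrassCurve.b₈]
  ring

/-- (I2) homogenised:
`Φ₂⁴ − b₄Φ₂²Ψ₂²² − 2b₆Φ₂Ψ₂²³ − b₈Ψ₂²⁴ − x·Ψ₂²·preΨ₄² = −Ψ₃·Ψ₅`. -/
lemma dup_I2 (x : F) :
    dup_Phi2 W x ^ 4 - W.b₄ * dup_Phi2 W x ^ 2 * dup_Psi2Sq W x ^ 2
      - 2 * W.b₆ * dup_Phi2 W x * dup_Psi2Sq W x ^ 3 - W.b₈ * dup_Psi2Sq W x ^ 4
      - x * dup_Psi2Sq W x * dup_prePsi4 W x ^ 2
      = -(dup_Psi3 W x * dup_Psi5 W x) := by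
  simp only [dup_Phi2, dup_Psi2Sq, dup_Psi3, dup_Psi5, dup_prePsi4, WeierstrassCurve.b₂,
    WeierstrassCurve.b₄, WeierstrassCurve.b₆, WeierstrassCurve.b₈]
  ring

end Fermat.Agent.S51
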