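import Mathlib

/-!
# S51, piece V: rational points on `y² = x(x+9)(x-16)` (the curve 15a1 = X₀(15))

Route: reduce by the 2-isogeny with kernel `(16,0)` to `F : y² = x(x-1)(x-81)` (15a2), and show
`F(ℚ) = F[2]` by a full 2-descent (translations by 2-torsion points only, descent on `num x`).
-/

set_option autoImplicit false

namespace Fermat.Agent.S51

/-- A rational number whose square is an integer is an integer. -/
theorem rp_int_of_sq_int (r : ℚ) (N : ℤ) (h : r ^ 2 = N) : ∃ k : ℤ, (k : ℚ) = r := by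
  have hden : (r ^ 2).den = 1 := by rw [h]; exact Rat.den_intCast N
  rw [Rat.den_pow] at hden
  have h1 : r.den = 1 := by
    rcases Nat.eq_zero_or_pos r.den with h0 | hpos
    · exact absurd h0 r.den_nz
    · exact (Nat.pow_eq_one.mp hden).resolve_right (by norm_num)
  exact ⟨r.num, (Rat.den_eq_one_iff r).mp h1⟩

/-- If `A * D = k ^ 2` with `k ≠ 0` then `A = ± g * s ^ 2` with `g = gcd A D`. -/
theorem rp_sq_part (A D k : ℤ) (hk : k ≠ 0) (h : A * D = k ^ 2) :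
    ∃ s : ℤ, s ≠ 0 ∧ (A = (Int.gcd A D : ℤ) * s ^ 2 ∨ A = -((Int.gcd A D : ℤ) * s ^ 2)) := by
  have hA : A ≠ 0 := by
    rintro rfl
    rw [zero_mul] at h
    exact hk (pow_eq_zero_iff (two_ne_zero)|>.mp h.symm)
  have hgpos : 0 < Int.gcd A D := Int.gcd_pos_of_ne_zero_left _ hA
  obtain ⟨A₁, D₁, hcop, hA₁, hD₁⟩ := Int.exists_gcd_one hgpos
  set g : ℤ := (Int.gcd A D : ℤ) with hg
  have hg0 : g ≠ 0 := by
    rw [hg]; exact_mod_cast hgpos.ne'
  have hk2 : g ^ 2 * (A₁ * D₁) = k ^ 2 := by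
    rw [← h]
    conv_rhs => rw [hA₁, hD₁]
    ring
  have hgk : g ∣ k := by
    have : g ^ 2 ∣ k ^ 2 := ⟨A₁ * D₁, hk2.symm⟩
    exact (Int.pow_dvd_pow_iff (two_ne_zero)).mp this
  obtain ⟨k₁, rfl⟩ := hgk
  have hk1 : A₁ * D₁ = k₁ ^ 2 := by
    have : g ^ 2 * (A₁ * D₁) = g ^ 2 * k₁ ^ 2 := by rw [hk2]; ring
    exact mul_left_cancel₀ (pow_ne_zero 2 hg0) this
  obtain ⟨s, hs⟩ := Int.sq_of_gcd_eq_one hcop hk1
  have hA₁0 : A₁ ≠ 0 := by
    rintro rfl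
    rw [zero_mul] at hA₁
    exact hA hA₁
  refine ⟨s, ?_, ?_⟩
  · rintro rfl
    rcases hs with hs | hs <;> simp at hs <;> exact hA₁0 hs
  · rcases hs with hs | hs
    · left; rw [hA₁, hs]; ring
    · right; rw [hA₁, hs]; ring

theorem rp_sq_mod_four (n : ℤ) : n ^ 2 % 4 = 0 ∨ n ^ 2 % 4 = 1 := by
  rcases Int.even_or_odd' n with ⟨k, rfl | rfl⟩
  · left; ring_nf; omega
  · right; ring_nf; omega

theorem rp_even_sq_add (n : ℤ) : ∃ u : ℤ, n ^ 2 + n = 2 * u := by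
  obtain ⟨u, hu⟩ := Int.even_mul_succ_self n
  exact ⟨u, by linear_combination hu⟩

/-- 2-adic obstruction: the classes `d = ±2, ±10` do not occur. -/
theorem rp_two_adic (a e b c d' : ℤ) (hd' : d' % 2 = 1) (hcop : IsCoprime a e)
    (h1 : a ^ 2 - e ^ 2 = 2 * d' * b ^ 2) (h2 : 2 * d' * (a ^ 2 - 81 * e ^ 2) = c ^ 2) : False := by
  obtain ⟨d'', rfl⟩ : ∃ d'' : ℤ, d' = 2 * d'' + 1 := ⟨d' / 2, by omega⟩
  rcases Int.even_or_odd' a with ⟨a', rfl | rfl⟩ <;> rcases Int.even_or_odd' e with ⟨e', rfl | rfl⟩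
  · -- both even
    have := hcop.isUnit_of_dvd' (Dvd.intro _ rfl : (2 : ℤ) ∣ 2 * a') (Dvd.intro _ rfl : (2 : ℤ) ∣ 2 * e')
    rw [Int.isUnit_iff] at this
    omega
  · ring_nf at h1; omega
  · ring_nf at h1; omega
  · -- both odd
    obtain ⟨u, hu⟩ := rp_even_sq_add a'
    obtain ⟨v, hv⟩ := rp_even_sq_add e'
    -- b is even
    rcases Int.even_or_odd' b with ⟨b₁, rfl | rfl⟩
    swap
    · ring_nf at h1 hu hv; omega
    have h1' : u - v = (2 * d'' + 1) * b₁ ^ 2 := by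
      have h8 : 8 * (u - v) = 8 * ((2 * d'' + 1) * b₁ ^ 2) := by
        linear_combination h1 - 4 * hu + 4 * hv
      exact mul_left_cancel₀ (by norm_num) h8
    have h2' : 16 * ((2 * d'' + 1) * (u - 81 * v - 10)) = c ^ 2 := by
      linear_combination h2 - 8 * (2 * d'' + 1) * hu + 648 * (2 * d'' + 1) * hv
    -- c = 4 c₁
    obtain ⟨c₁, r, hr0, hr4, rfl⟩ : ∃ c₁ r : ℤ, 0 ≤ r ∧ r < 4 ∧ c = 4 * c₁ + r :=
      ⟨c / 4, c % 4, by omega, by omega, by omega⟩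
    have hb := rp_sq_mod_four b₁
    have hc := rp_sq_mod_four c₁
    have hr : r = 0 := by
      interval_cases r
      · rfl
      · ring_nf at h2'; omega
      · ring_nf at h2'; omega
      · ring_nf at h2'; omega
    subst hr
    have h2'' : (2 * d'' + 1) * (u - 81 * v - 10) = c₁ ^ 2 := by
      have h16 : 16 * ((2 * d'' + 1) * (u - 81 * v - 10)) = 16 * c₁ ^ 2 := by
        linear_combination h2'
      exact mul_left_cancel₀ (by norm_num) h16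
    have hfin : c₁ ^ 2 = b₁ ^ 2 + 4 * ((d'' ^ 2 + d'') * b₁ ^ 2) - 80 * (v * (2 * d'' + 1))
        - 20 * d'' - 10 := by
      linear_combination (-1 : ℤ) * h2'' + (2 * d'' + 1) * h1'
    omega

theorem rp_zmod5 : ∀ a e k : ZMod 5,
    3 * (3 * a ^ 2 - e ^ 2) * (3 * a ^ 2 - 81 * e ^ 2) = k ^ 2 → a = 0 ∧ e = 0 := by
  decide

theorem rp_mod_five (a e k : ℤ) (hcop : IsCoprime a e)
    (h : 3 * (3 * a ^ 2 - e ^ 2) * (3 * a ^ 2 - 81 * e ^ 2) = k ^ 2) : False := by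
  have h5 := congrArg (Int.cast : ℤ → ZMod 5) h
  push_cast at h5
  obtain ⟨ha, he⟩ := rp_zmod5 _ _ _ h5
  have ha' : (5 : ℤ) ∣ a := (ZMod.intCast_zmod_eq_zero_iff_dvd a 5).mp ha
  have he' : (5 : ℤ) ∣ e := (ZMod.intCast_zmod_eq_zero_iff_dvd e 5).mp he
  have := hcop.isUnit_of_dvd' ha' he'
  rw [Int.isUnit_iff] at this
  omega

theorem rp_div81 (g : ℕ) (hg : g ∣ 81) :
    ∃ δ u : ℤ, (δ = 1 ∨ δ = 3) ∧ u ≠ 0 ∧ (g : ℤ) = δ * u ^ 2 := by
  have hmem : g ∈ Nat.divisors 81 := Nat.mem_divisors.mpr ⟨hg, by norm_num⟩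
  have h81 : Nat.divisors 81 = {1, 3, 9, 27, 81} := by decide
  rw [h81] at hmem
  simp only [Finset.mem_insert, Finset.mem_singleton] at hmem
  rcases hmem with rfl | rfl | rfl | rfl | rfl
  · exact ⟨1, 1, Or.inl rfl, by norm_num, by norm_num⟩
  · exact ⟨3, 1, Or.inr rfl, by norm_num, by norm_num⟩
  · exact ⟨1, 3, Or.inl rfl, by norm_num, by norm_num⟩
  · exact ⟨3, 3, Or.inr rfl, by norm_num, by norm_num⟩
  · exact ⟨1, 9, Or.inl rfl, by norm_num, by norm_num⟩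

theorem rp_div80 (g : ℕ) (hg : g ∣ 80) :
    ∃ δ u : ℤ, (δ = 1 ∨ δ = 2 ∨ δ = 5 ∨ δ = 10) ∧ u ≠ 0 ∧ (g : ℤ) = δ * u ^ 2 := by
  have hmem : g ∈ Nat.divisors 80 := Nat.mem_divisors.mpr ⟨hg, by norm_num⟩
  have h80 : Nat.divisors 80 = {1, 2, 4, 5, 8, 10, 16, 20, 40, 80} := by decide
  rw [h80] at hmem
  simp only [Finset.mem_insert, Finset.mem_singleton] at hmem
  rcases hmem with rfl | rfl | rfl | rfl | rfl | rfl | rfl | rfl | rfl | rfl
  · exact ⟨1, 1, by simp, by norm_num, by norm_num⟩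
  · exact ⟨2, 1, by simp, by norm_num, by norm_num⟩
  · exact ⟨1, 2, by simp, by norm_num, by norm_num⟩
  · exact ⟨5, 1, by simp, by norm_num, by norm_num⟩
  · exact ⟨2, 2, by simp, by norm_num, by norm_num⟩
  · exact ⟨10, 1, by simp, by norm_num, by norm_num⟩
  · exact ⟨1, 4, by simp, by norm_num, by norm_num⟩
  · exact ⟨5, 2, by simp, by norm_num, by norm_num⟩
  · exact ⟨10, 2, by simp, by norm_num, by norm_num⟩
  · exact ⟨5, 4, by simp, by norm_num, by norm_num⟩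

/-- cancel a square: `a ^ 2 * X = k ^ 2`, `a ≠ 0` gives `X = k₂ ^ 2` with `k = a * k₂`. -/
theorem rp_cancel_sq (a X k : ℤ) (ha : a ≠ 0) (h : a ^ 2 * X = k ^ 2) :
    ∃ k₂ : ℤ, k = a * k₂ ∧ X = k₂ ^ 2 := by
  have hdvd : a ∣ k := by
    have : a ^ 2 ∣ k ^ 2 := ⟨X, h.symm⟩
    exact (Int.pow_dvd_pow_iff (two_ne_zero)).mp this
  obtain ⟨k₂, rfl⟩ := hdvd
  refine ⟨k₂, rfl, ?_⟩
  have : a ^ 2 * X = a ^ 2 * k₂ ^ 2 := by rw [h]; ring
  exact mul_left_cancel₀ (pow_ne_zero 2 ha) this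

theorem rp_class_int (m e k : ℤ) (he : e ≠ 0) (hme : IsCoprime m e) (hk : k ≠ 0)
    (h : m * (m - e ^ 2) * (m - 81 * e ^ 2) = k ^ 2) :
    ∃ d a b c : ℤ, (d = 1 ∨ d = -1 ∨ d = 5 ∨ d = -5) ∧ a ≠ 0 ∧ b ≠ 0 ∧
      m = a ^ 2 ∧ m - e ^ 2 = d * b ^ 2 ∧ d * (m - 81 * e ^ 2) = c ^ 2 := by
  have he2 : 0 < e ^ 2 := by positivity
  have hk2 : 0 < k ^ 2 := by positivity
  -- signs
  have hm_pos : 0 < m := by
    by_contra hm
    have hm := not_lt.mp hm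
    have hB : m - e ^ 2 < 0 := by linarith
    have hC : m - 81 * e ^ 2 < 0 := by linarith
    have : m * (m - e ^ 2) * (m - 81 * e ^ 2) ≤ 0 :=
      mul_nonpos_of_nonneg_of_nonpos (mul_nonneg_of_nonpos_of_nonpos hm hB.le) hC.le
    linarith
  -- coprimality facts
  have hme2 : IsCoprime m (e ^ 2) := hme.pow_right
  have hmB : IsCoprime m (m - e ^ 2) := by
    have := hme2.neg_right.add_mul_left_right 1
    simpa [sub_eq_neg_add, add_comm] using this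
  have hBe : IsCoprime (m - e ^ 2) e := by
    have := hme.add_mul_right_left (-e)
    have h2 : m + -e * e = m - e ^ 2 := by ring
    rwa [h2] at this
  -- Step 1: m = g₁ s²
  obtain ⟨s, hs0, hs⟩ := rp_sq_part m ((m - e ^ 2) * (m - 81 * e ^ 2)) k hk (by rw [← h]; ring)
  set g₁ := Int.gcd m ((m - e ^ 2) * (m - 81 * e ^ 2)) with hg₁
  have hg₁m : (g₁ : ℤ) ∣ m := Int.gcd_dvd_left _ _
  have hg₁BC : (g₁ : ℤ) ∣ (m - e ^ 2) * (m - 81 * e ^ 2) := Int.gcd_dvd_right _ _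
  have hg₁B : IsCoprime (g₁ : ℤ) (m - e ^ 2) := IsCoprime.of_isCoprime_of_dvd_left hmB hg₁m
  have hg₁C : (g₁ : ℤ) ∣ m - 81 * e ^ 2 := hg₁B.dvd_of_dvd_mul_left hg₁BC
  have hg₁81 : (g₁ : ℤ) ∣ 81 := by
    have h1 : (g₁ : ℤ) ∣ 81 * e ^ 2 := by
      have := dvd_sub hg₁m hg₁C
      have h2 : m - (m - 81 * e ^ 2) = 81 * e ^ 2 := by ring
      rwa [h2] at this
    have h3 : IsCoprime (g₁ : ℤ) (e ^ 2) := IsCoprime.of_isCoprime_of_dvd_left hme2 hg₁m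
    exact h3.dvd_of_dvd_mul_right h1
  have hg₁81' : g₁ ∣ 81 := by exact_mod_cast hg₁81
  obtain ⟨δ₁, u₁, hδ₁, hu₁, hgu₁⟩ := rp_div81 g₁ hg₁81'
  have hg₁pos : (0 : ℤ) < g₁ := by
    have : g₁ ≠ 0 := by
      intro h0
      rw [h0] at hg₁81'
      simp at hg₁81'
    exact_mod_cast Nat.pos_of_ne_zero this
  have hm_eq : m = δ₁ * (u₁ * s) ^ 2 := by
    rcases hs with hs | hs
    · rw [hs, hgu₁]; ring
    · exfalso
      have : 0 < (g₁ : ℤ) * s ^ 2 := by positivity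
      linarith
  have hus : u₁ * s ≠ 0 := mul_ne_zero hu₁ hs0
  rcases hδ₁ with rfl | rfl
  swap
  · -- δ₁ = 3 : impossible mod 5
    exfalso
    set a := u₁ * s with ha
    have hcop : IsCoprime a e := by
      have : IsCoprime (3 * a ^ 2) e := hm_eq ▸ hme
      exact (IsCoprime.pow_left_iff (by norm_num : 0 < 2)).mp (IsCoprime.of_mul_left_right this)
    have h' : a ^ 2 * (3 * (3 * a ^ 2 - e ^ 2) * (3 * a ^ 2 - 81 * e ^ 2)) = k ^ 2 := by
      rw [← h, hm_eq]; ring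
    obtain ⟨k₂, -, hk₂⟩ := rp_cancel_sq a _ k hus h'
    exact rp_mod_five a e k₂ hcop hk₂
  -- δ₁ = 1
  set a := u₁ * s with ha
  have hm_eq' : m = a ^ 2 := by rw [hm_eq]; ring
  have h' : a ^ 2 * ((m - e ^ 2) * (m - 81 * e ^ 2)) = k ^ 2 := by
    rw [← h, ← hm_eq']; ring
  obtain ⟨k₂, hkk₂, hk₂⟩ := rp_cancel_sq a _ k hus h'
  have hk₂0 : k₂ ≠ 0 := by
    rintro rfl
    rw [mul_zero] at hkk₂
    exact hk hkk₂
  -- Step 2: B = ± g₂ t²
  obtain ⟨t, ht0, ht⟩ := rp_sq_part (m - e ^ 2) (m - 81 * e ^ 2) k₂ hk₂0 hk₂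
  set g₂ := Int.gcd (m - e ^ 2) (m - 81 * e ^ 2) with hg₂
  have hg₂B : (g₂ : ℤ) ∣ m - e ^ 2 := Int.gcd_dvd_left _ _
  have hg₂C : (g₂ : ℤ) ∣ m - 81 * e ^ 2 := Int.gcd_dvd_right _ _
  have hg₂80 : (g₂ : ℤ) ∣ 80 := by
    have h1 : (g₂ : ℤ) ∣ 80 * e ^ 2 := by
      have := dvd_sub hg₂B hg₂C
      have h2 : m - e ^ 2 - (m - 81 * e ^ 2) = 80 * e ^ 2 := by ring
      rwa [h2] at this
    have h3 : IsCoprime (g₂ : ℤ) (e ^ 2) :=
      IsCoprime.of_isCoprime_of_dvd_left hBe.pow_right hg₂B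
    exact h3.dvd_of_dvd_mul_right h1
  have hg₂80' : g₂ ∣ 80 := by exact_mod_cast hg₂80
  obtain ⟨δ₂, u₂, hδ₂, hu₂, hgu₂⟩ := rp_div80 g₂ hg₂80'
  set b := u₂ * t with hb
  have hb0 : b ≠ 0 := mul_ne_zero hu₂ ht0
  -- B = d b² with d = ± δ₂
  obtain ⟨d, hd, hBd⟩ : ∃ d : ℤ, (d = δ₂ ∨ d = -δ₂) ∧ m - e ^ 2 = d * b ^ 2 := by
    rcases ht with ht | ht
    · exact ⟨δ₂, Or.inl rfl, by rw [ht, hgu₂]; ring⟩
    · exact ⟨-δ₂, Or.inr rfl, by rw [ht, hgu₂]; ring⟩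
  -- d * C = c²
  have h'' : b ^ 2 * (d * (m - 81 * e ^ 2)) = k₂ ^ 2 := by
    rw [← hk₂, hBd]; ring
  obtain ⟨c, -, hc⟩ := rp_cancel_sq b _ k₂ hb0 h''
  have hcop : IsCoprime a e := by
    have : IsCoprime (a ^ 2) e := hm_eq' ▸ hme
    exact (IsCoprime.pow_left_iff (by norm_num : 0 < 2)).mp this
  have hBd' : a ^ 2 - e ^ 2 = d * b ^ 2 := by rw [← hm_eq']; exact hBd
  have hc' : d * (a ^ 2 - 81 * e ^ 2) = c ^ 2 := by rw [← hm_eq']; exact hc
  -- exclude even d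
  have key : ∀ d' : ℤ, d' % 2 = 1 → d = 2 * d' → False := by
    intro d' hd' hdd'
    subst hdd'
    exact rp_two_adic a e b c d' hd' hcop hBd' hc'
  refine ⟨d, a, b, c, ?_, hus, hb0, hm_eq', hBd, hc⟩
  rcases hδ₂ with rfl | rfl | rfl | rfl <;> rcases hd with rfl | rfl
  · simp
  · simp
  · exact (key 1 (by norm_num) (by norm_num)).elim
  · exact (key (-1) (by norm_num) (by norm_num)).elim
  · simp
  · simp
  · exact (key 5 (by norm_num) (by norm_num)).elim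
  · exact (key (-5) (by norm_num) (by norm_num)).elim

/-- **Class lemma** (2-Selmer computation for `F : y² = x(x-1)(x-81)`): a rational point with
`y ≠ 0` lies in one of the four classes of the 2-torsion points. -/
theorem rp_class (x y : ℚ) (hy : y ≠ 0) (h : y ^ 2 = x * (x - 1) * (x - 81)) :
    ∃ d : ℚ, (d = 1 ∨ d = -1 ∨ d = 5 ∨ d = -5) ∧
      ∃ α β γ : ℚ, x = α ^ 2 ∧ x - 1 = d * β ^ 2 ∧ x - 81 = d * γ ^ 2 := by
  set m : ℤ := x.num with hm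
  set n : ℤ := (x.den : ℤ) with hn
  have hnpos : 0 < n := by rw [hn]; exact_mod_cast x.den_pos
  have hn0 : (n : ℚ) ≠ 0 := by exact_mod_cast hnpos.ne'
  have hx : x = (m : ℚ) / (n : ℚ) := by
    rw [hm, hn]; exact_mod_cast (Rat.num_div_den x).symm
  have hcop : IsCoprime m n := Rat.isCoprime_num_den x
  -- Step A
  have hr : (y * n ^ 2) ^ 2 = ((m * (m - n) * (m - 81 * n) * n : ℤ) : ℚ) := by
    push_cast
    rw [mul_pow, h, hx]
    field_simp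
  obtain ⟨k, hk⟩ := rp_int_of_sq_int _ _ hr
  have hk2 : n * (m * (m - n) * (m - 81 * n)) = k ^ 2 := by
    have : ((k ^ 2 : ℤ) : ℚ) = ((m * (m - n) * (m - 81 * n) * n : ℤ) : ℚ) := by
      rw [← hr, ← hk]; push_cast; ring
    have := Int.cast_injective this
    rw [this]; ring
  have hk0 : k ≠ 0 := by
    rintro rfl
    have : y * (n : ℚ) ^ 2 = 0 := by rw [← hk]; simp
    rcases mul_eq_zero.mp this with h1 | h1
    · exact hy h1
    · exact hn0 (pow_eq_zero_iff (two_ne_zero) |>.mp h1)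
  -- Step B
  have hnm : IsCoprime n m := hcop.symm
  have hnB : IsCoprime n (m - n) := by
    have := hnm.add_mul_left_right (-1)
    have h2 : m + n * -1 = m - n := by ring
    rwa [h2] at this
  have hnC : IsCoprime n (m - 81 * n) := by
    have := hnm.add_mul_left_right (-81)
    have h2 : m + n * -81 = m - 81 * n := by ring
    rwa [h2] at this
  have hnall : IsCoprime n (m * (m - n) * (m - 81 * n)) := (hnm.mul_right hnB).mul_right hnC
  obtain ⟨e, he⟩ := Int.sq_of_isCoprime hnall hk2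
  have hne : n = e ^ 2 := by
    rcases he with he | he
    · exact he
    · exfalso
      have : 0 ≤ e ^ 2 := by positivity
      linarith
  have he0 : e ≠ 0 := by
    rintro rfl
    rw [hne] at hnpos
    simp at hnpos
  -- Step C
  have hk2' : e ^ 2 * (m * (m - e ^ 2) * (m - 81 * e ^ 2)) = k ^ 2 := by
    rw [← hk2, hne]
  obtain ⟨k', hkk', hk'⟩ := rp_cancel_sq e _ k he0 hk2'
  have hk'0 : k' ≠ 0 := by
    rintro rfl
    rw [mul_zero] at hkk'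
    exact hk0 hkk'
  have hme : IsCoprime m e := by
    have : IsCoprime m (e ^ 2) := hne ▸ hcop
    exact (IsCoprime.pow_right_iff (by norm_num : 0 < 2)).mp this
  -- Step D
  obtain ⟨d, a, b, c, hd, ha0, hb0, hma, hB, hC⟩ := rp_class_int m e k' he0 hme hk'0 hk'
  have hd0 : (d : ℚ) ≠ 0 := by
    rcases hd with rfl | rfl | rfl | rfl <;> norm_num
  have heq : (e : ℚ) ≠ 0 := by exact_mod_cast he0
  have hnq : (n : ℚ) = (e : ℚ) ^ 2 := by exact_mod_cast hne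
  have hmaq : (m : ℚ) = (a : ℚ) ^ 2 := by exact_mod_cast hma
  have hBq : (m : ℚ) - (e : ℚ) ^ 2 = d * (b : ℚ) ^ 2 := by exact_mod_cast hB
  have hCq : (d : ℚ) * ((m : ℚ) - 81 * (e : ℚ) ^ 2) = (c : ℚ) ^ 2 := by exact_mod_cast hC
  refine ⟨(d : ℚ), ?_, (a : ℚ) / e, (b : ℚ) / e, (c : ℚ) / (d * e), ?_, ?_, ?_⟩
  · rcases hd with rfl | rfl | rfl | rfl <;> simp
  · rw [hx, hnq, hmaq]; field_simp
  · rw [hx, hnq]
    field_simp
    linear_combination hBq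
  · rw [hx, hnq]
    field_simp
    linear_combination hCq

end Fermat.Agent.S51
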