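import Fermat.Agent.S51.RatPointsClass

/-!
# S51, piece V: the descent on `F : y² = x(x-1)(x-81)`

The trivial class (`x`, `x-1`, `x-81` all rational squares) is empty: infinite descent on `num x`.
-/

set_option autoImplicit false

namespace Fermat.Agent.S51

/-- `x` is in the trivial class: `x`, `x - 1`, `x - 81` are squares of rationals. -/
def rp_Triv (x : ℚ) : Prop := ∃ α β γ : ℚ, x = α ^ 2 ∧ x - 1 = β ^ 2 ∧ x - 81 = γ ^ 2

/-- the numerator of `p / q` is at most `|p|` -/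
theorem rp_desc_natAbs_num_le (p q : ℤ) (hq : q ≠ 0) (hp : p ≠ 0) :
    (((p : ℚ) / (q : ℚ)).num).natAbs ≤ p.natAbs := by
  have h := Rat.num_dvd p hq
  rw [Rat.divInt_eq_div] at h
  exact Nat.le_of_dvd (Int.natAbs_pos.mpr hp) (Int.natAbs_dvd_natAbs.mpr h)

/-- One descent step. -/
theorem rp_desc_step (x : ℚ) (hx : rp_Triv x) :
    ∃ x' : ℚ, rp_Triv x' ∧ x'.num.natAbs < x.num.natAbs := by
  obtain ⟨α₀, β₀, γ₀, hα₀, hβ₀, hγ₀⟩ := hx
  -- nonnegative representatives
  set α := |α₀| with hαdef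
  set β := |β₀| with hβdef
  set γ := |γ₀| with hγdef
  have hα : x = α ^ 2 := by rw [hαdef, sq_abs]; exact hα₀
  have hβ : x - 1 = β ^ 2 := by rw [hβdef, sq_abs]; exact hβ₀
  have hγ : x - 81 = γ ^ 2 := by rw [hγdef, sq_abs]; exact hγ₀
  have hα0 : 0 ≤ α := abs_nonneg _
  have hβ0 : 0 ≤ β := abs_nonneg _
  have hγ0 : 0 ≤ γ := abs_nonneg _
  have hx81 : 81 ≤ x := by nlinarith [sq_nonneg γ]
  have hαpos : 0 < α := by
    rcases hα0.lt_or_eq with h | h
    · exact h
    · exfalso; rw [← h] at hα; norm_num at hα; linarith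
  have hβpos : 0 < β := by
    rcases hβ0.lt_or_eq with h | h
    · exact h
    · exfalso; rw [← h] at hβ; norm_num at hβ; linarith
  -- integers
  set a : ℤ := α.num with hadef
  set e : ℤ := (α.den : ℤ) with hedef
  have hapos : 0 < a := Rat.num_pos.mpr hαpos
  have hepos : 0 < e := by rw [hedef]; exact_mod_cast α.den_pos
  have heq0 : (e : ℚ) ≠ 0 := by exact_mod_cast hepos.ne'
  have hαae : α = (a : ℚ) / (e : ℚ) := by
    rw [hadef, hedef]; exact_mod_cast (Rat.num_div_den α).symm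
  have hαe : α * e = a := by rw [hαae]; field_simp
  have hxnum : x.num = a ^ 2 := by rw [hα, Rat.num_pow]
  obtain ⟨b, hb⟩ := rp_int_of_sq_int (β * e) (a ^ 2 - e ^ 2) (by
    push_cast
    rw [mul_pow, ← hβ, hα, ← hαe]; ring)
  obtain ⟨c, hc⟩ := rp_int_of_sq_int (γ * e) (a ^ 2 - 81 * e ^ 2) (by
    push_cast
    rw [mul_pow, ← hγ, hα, ← hαe]; ring)
  have hβbe : β = (b : ℚ) / (e : ℚ) := by rw [hb]; field_simp
  have hγce : γ = (c : ℚ) / (e : ℚ) := by rw [hc]; field_simp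
  have hbpos : 0 < b := by
    have : (0 : ℚ) < (b : ℚ) := by rw [hb]; positivity
    exact_mod_cast this
  have hc0 : 0 ≤ c := by
    have : (0 : ℚ) ≤ (c : ℚ) := by rw [hc]; positivity
    exact_mod_cast this
  have hab : a ^ 2 - e ^ 2 = b ^ 2 := by
    have : ((a ^ 2 - e ^ 2 : ℤ) : ℚ) = ((b ^ 2 : ℤ) : ℚ) := by
      push_cast
      rw [hb, mul_pow, ← hβ, hα, ← hαe]; ring
    exact_mod_cast this
  have hac : a ^ 2 - 81 * e ^ 2 = c ^ 2 := by
    have : ((a ^ 2 - 81 * e ^ 2 : ℤ) : ℚ) = ((c ^ 2 : ℤ) : ℚ) := by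
      push_cast
      rw [hc, mul_pow, ← hγ, hα, ← hαe]; ring
    exact_mod_cast this
  have hba : b < a := by nlinarith
  have hca : c < a := by nlinarith
  have ha2 : 2 ≤ a := by omega
  -- the point Q
  have hαβ : 0 < α + β := by positivity
  have hαγ : 0 < α + γ := by positivity
  have hβγ : 0 < β + γ := by positivity
  set xQ : ℚ := (α + β) * (α + γ) with hxQ
  set yQ : ℚ := (α + β) * (β + γ) * (α + γ) with hyQ
  have hxQ1 : xQ - 1 = (α + β) * (β + γ) := by
    rw [hxQ]; linear_combination hβ - hα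
  have hxQ81 : xQ - 81 = (α + γ) * (β + γ) := by
    rw [hxQ]; linear_combination hγ - hα
  have hyQ0 : yQ ≠ 0 := by rw [hyQ]; positivity
  have hQ : yQ ^ 2 = xQ * (xQ - 1) * (xQ - 81) := by
    rw [hxQ1, hxQ81, hxQ, hyQ]; ring
  obtain ⟨d, hd, α', β', γ', hα', hβ', hγ'⟩ := rp_class xQ yQ hyQ0 hQ
  have hxQ1pos : 0 < xQ - 1 := by rw [hxQ1]; positivity
  have hxQ81pos : 0 < xQ - 81 := by rw [hxQ81]; positivity
  have hdpos : 0 < d := by
    by_contra hneg
    have hneg := not_lt.mp hneg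
    have : d * β' ^ 2 ≤ 0 := mul_nonpos_of_nonpos_of_nonneg hneg (sq_nonneg _)
    linarith
  have hγ'0 : γ' ≠ 0 := by
    rintro rfl
    rw [hγ'] at hxQ81pos
    simp at hxQ81pos
  have habne : (a : ℚ) - b ≠ 0 := by
    have : (0 : ℚ) < (a : ℚ) - b := by exact_mod_cast sub_pos.mpr hba
    exact this.ne'
  have hacne : (a : ℚ) + c ≠ 0 := by
    have : (0 : ℚ) < (a : ℚ) + c := by exact_mod_cast (by omega : 0 < a + c)
    exact this.ne'
  have habq : ((a : ℚ) - b) * (a + b) = (e : ℚ) ^ 2 := by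
    have : ((a - b) * (a + b) : ℤ) = e ^ 2 := by linear_combination hab
    exact_mod_cast this
  have hacq : ((a : ℚ) - c) * (a + c) = 81 * (e : ℚ) ^ 2 := by
    have : ((a - c) * (a + c) : ℤ) = 81 * e ^ 2 := by linear_combination hac
    exact_mod_cast this
  have hxnat : x.num.natAbs = a.natAbs ^ 2 := by rw [hxnum, Int.natAbs_pow]
  have hbig : ∀ p : ℤ, 0 < p → p ≤ a + c → p.natAbs < x.num.natAbs := by
    intro p hp hpa
    rw [hxnat]
    have h1 : (p.natAbs : ℤ) = p := Int.natAbs_of_nonneg hp.le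
    have h2 : (a.natAbs : ℤ) = a := Int.natAbs_of_nonneg hapos.le
    have : (p.natAbs : ℤ) < (a.natAbs : ℤ) ^ 2 := by rw [h1, h2]; nlinarith
    exact_mod_cast this
  rcases hd with rfl | rfl | rfl | rfl
  · -- d = 1
    refine ⟨xQ, ⟨α', β', γ', hα', by rw [hβ']; ring, by rw [hγ']; ring⟩, ?_⟩
    have hxQeq : xQ = ((a + c : ℤ) : ℚ) / ((a - b : ℤ) : ℚ) := by
      push_cast
      rw [hxQ, hαae, hβbe, hγce]
      field_simp
      linear_combination habq
    rw [hxQeq]
    refine lt_of_le_of_lt (rp_desc_natAbs_num_le _ _ (by omega) (by omega)) ?_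
    exact hbig _ (by omega) le_rfl
  · exfalso; linarith
  · -- d = 5
    refine ⟨81 * (xQ - 1) / (xQ - 81), ⟨9 * β' / γ', 4 * α' / γ', 36 / γ', ?_, ?_, ?_⟩, ?_⟩
    · rw [hβ', hγ']; field_simp
      ring
    · rw [hγ']; field_simp
      linear_combination hγ' + 80 * hα'
    · rw [hγ']; field_simp
      linear_combination 81 * hγ'
    · have hxQeq : 81 * (xQ - 1) / (xQ - 81) = ((a - c : ℤ) : ℚ) / ((a - b : ℤ) : ℚ) := by
        push_cast
        rw [hxQ1, hxQ81, hαae, hβbe, hγce]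
        field_simp
        linear_combination 81 * habq - hacq
      rw [hxQeq]
      refine lt_of_le_of_lt (rp_desc_natAbs_num_le _ _ (by omega) (by omega)) ?_
      exact hbig _ (by omega) (by omega)
  · exfalso; linarith

/-- The trivial class is empty. -/
theorem rp_no_triv (x : ℚ) : ¬ rp_Triv x := by
  induction' h : x.num.natAbs using Nat.strong_induction_on with n ih generalizing x
  intro hT
  obtain ⟨x', hT', hlt⟩ := rp_desc_step x hT
  exact ih _ (h ▸ hlt) x' rfl hT'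

end Fermat.Agent.S51
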